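import Fermat.Agent.Cheb.Cross.ChebExactMain
import Fermat.Agent.Pseudo.S30OfPseudo
import Fermat.Prelude.Def_GaloisRep_Residual

/-!
# Program E (S58), node PS-CH: the Chebotarev approximation lemmas

Every `σ ∈ G_ℚ` is approximated by a Frobenius element `φ` at a prime `ℓ` outside a given finite
set `T`, on a given finite extension `L₀ / ℚ` and simultaneously

* `exists_frob_eqOn` : (CH0) nothing else (`Cheb.chebExact`, equality oriented `φ x = σ x`);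
* `exists_frob_approx_trace` : (CH1) modulo `𝔪 ^ n` for an adically continuous class function `t`;
* `exists_frob_approx_trace₂` : (CH1') the same for two class functions at once;
* `adicContinuous_det` : the determinant `d` of a pseudo-character `(t, d)` (identity `P3`) is
  adically continuous when `2` is a unit;
* `exists_frob_approx_hecke` : (CH2) for a `HeckePseudoChar` `H`: `ℓ ∤ N`, `ℓ ∉ S`, `ℓ ∉ T`,
  `χ (T_ℓ) ≡ H.t σ` modulo `𝔪 ^ n`;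
* `exists_frob_approx_hecke_det` : (CH2') in addition `(ℓ : O') ≡ H.d σ` modulo `𝔪 ^ n` (`2` a
  unit);
* `exists_frob_approx_residual` : (CH3) for a `ResidualGaloisRep` `ρ`: `ρ φ = ρ σ`;
* `exists_frob_approx_residual₂` : (CH3') for two residual representations at once;
* `exists_frob_approx_hecke_residual` : (CH4) `H` modulo `𝔪 ^ n` and a residual representation at
  once.
-/

set_option autoImplicit false
set_option linter.style.haveILetI false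
set_option linter.unusedSectionVars false
set_option linter.unusedVariables false

open IsLocalRing

namespace Fermat.Agent.EC.Pseudo.ChebApprox

open Fermat.Agent.Pseudo

local notation "Qb" => AlgebraicClosure ℚ
local notation "GQ" => (AlgebraicClosure ℚ ≃ₐ[ℚ] AlgebraicClosure ℚ)

/-- **(CH0) Chebotarev, exact form**, oriented `φ x = σ x`. -/
theorem exists_frob_eqOn (L₀ : IntermediateField ℚ Qb) (hL₀ : FiniteDimensional ℚ L₀) (σ : GQ)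
    (T : Finset ℕ) :
    ∃ ℓ : ℕ, ℓ.Prime ∧ ℓ ∉ T ∧ ∃ (A : ValuationSubring Qb) (φ : GQ),
      A.LiesOverPrime ℓ ∧ A.IsFrobeniusAt φ ℓ ∧ ∀ x ∈ L₀, φ x = σ x := by
  obtain ⟨ℓ, hℓ, hℓT, A, φ, hA, hφ, h⟩ := Fermat.Agent.Cheb.chebExact L₀ hL₀ σ T
  exact ⟨ℓ, hℓ, hℓT, A, φ, hA, hφ, fun x hx => (h x hx).symm⟩

section Trace

variable {O : Type} [CommRing O] [IsDomain O] [IsDiscreteValuationRing O]

/-- **(CH1)** approximation of `σ` by a Frobenius element on `L₀` and modulo `𝔪 ^ n` for an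
adically continuous function `t`. -/
theorem exists_frob_approx_trace {t : GQ → O} (ht : TraceAdicContinuous t) (n : ℕ)
    (L₀ : IntermediateField ℚ Qb) (hL₀ : FiniteDimensional ℚ L₀) (σ : GQ) (T : Finset ℕ) :
    ∃ ℓ : ℕ, ℓ.Prime ∧ ℓ ∉ T ∧ ∃ (A : ValuationSubring Qb) (φ : GQ),
      A.LiesOverPrime ℓ ∧ A.IsFrobeniusAt φ ℓ ∧ (∀ x ∈ L₀, φ x = σ x) ∧
      t φ - t σ ∈ maximalIdeal O ^ n := by
  obtain ⟨L₁, hL₁, h₁⟩ := ht n
  haveI := hL₀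
  haveI := hL₁
  have hL : FiniteDimensional ℚ ↥(L₀ ⊔ L₁) := IntermediateField.finiteDimensional_sup L₀ L₁
  obtain ⟨ℓ, hℓ, hℓT, A, φ, hA, hφ, h⟩ := exists_frob_eqOn (L₀ ⊔ L₁) hL σ T
  exact ⟨ℓ, hℓ, hℓT, A, φ, hA, hφ, fun x hx => h x ((le_sup_left : L₀ ≤ L₀ ⊔ L₁) hx),
    h₁ φ σ fun x hx => h x ((le_sup_right : L₁ ≤ L₀ ⊔ L₁) hx)⟩

/-- **(CH1')** the same for two adically continuous functions at once. -/
theorem exists_frob_approx_trace₂ {t t' : GQ → O} (ht : TraceAdicContinuous t)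
    (ht' : TraceAdicContinuous t') (n : ℕ)
    (L₀ : IntermediateField ℚ Qb) (hL₀ : FiniteDimensional ℚ L₀) (σ : GQ) (T : Finset ℕ) :
    ∃ ℓ : ℕ, ℓ.Prime ∧ ℓ ∉ T ∧ ∃ (A : ValuationSubring Qb) (φ : GQ),
      A.LiesOverPrime ℓ ∧ A.IsFrobeniusAt φ ℓ ∧ (∀ x ∈ L₀, φ x = σ x) ∧
      t φ - t σ ∈ maximalIdeal O ^ n ∧ t' φ - t' σ ∈ maximalIdeal O ^ n := by
  obtain ⟨L₁, hL₁, h₁⟩ := ht' n
  haveI := hL₀
  haveI := hL₁
  have hL : FiniteDimensional ℚ ↥(L₀ ⊔ L₁) := IntermediateField.finiteDimensional_sup L₀ L₁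
  obtain ⟨ℓ, hℓ, hℓT, A, φ, hA, hφ, h, htφ⟩ := exists_frob_approx_trace ht n (L₀ ⊔ L₁) hL σ T
  exact ⟨ℓ, hℓ, hℓT, A, φ, hA, hφ, fun x hx => h x ((le_sup_left : L₀ ≤ L₀ ⊔ L₁) hx), htφ,
    h₁ φ σ fun x hx => h x ((le_sup_right : L₁ ≤ L₀ ⊔ L₁) hx)⟩

/-- The determinant `d` of a pseudo-character `(t, d)` (identity `P3`) is adically continuous when
`2` is a unit: `2 d(g) = t(g)² - t(g²)`. -/
theorem adicContinuous_det {t : GQ → O} {d : GQ →* Oˣ}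
    (P3 : ∀ g h, t (g * h) + (d h : O) * t (g * h⁻¹) = t g * t h) (P1 : t 1 = 2)
    (h2 : IsUnit (2 : O)) (ht : TraceAdicContinuous t) :
    TraceAdicContinuous fun g => ((d g : Oˣ) : O) := by
  intro n
  obtain ⟨L, hL, hcont⟩ := ht n
  haveI := hL
  haveI : Normal ℚ Qb := (Fermat.Agent.S54.FrobExists.isGalois_rat_algebraicClosure).to_normal
  refine ⟨IntermediateField.normalClosure ℚ L Qb, normalClosure.is_finiteDimensional ℚ L Qb, ?_⟩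
  intro g g' hgg'
  haveI : Normal ℚ (IntermediateField.normalClosure ℚ L Qb) := normalClosure.normal ℚ L Qb
  have hle : L ≤ IntermediateField.normalClosure ℚ L Qb := IntermediateField.le_normalClosure L
  -- `2 d(g) = t(g)² - t(g²)`
  have key : ∀ g : GQ, (2 : O) * (d g : O) = t g * t g - t (g * g) := by
    intro g
    have h := P3 g g
    rw [mul_inv_cancel, P1] at h
    linear_combination h
  have h1 : t g - t g' ∈ maximalIdeal O ^ n := hcont g g' fun x hx => hgg' x (hle hx)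
  have h2' : t (g * g) - t (g' * g') ∈ maximalIdeal O ^ n := by
    refine hcont _ _ fun x hx => ?_
    rw [AlgEquiv.mul_apply, AlgEquiv.mul_apply]
    have hx' : g' x ∈ IntermediateField.normalClosure ℚ L Qb := by
      have := (IntermediateField.normal_iff_forall_map_le'.mp
        (inferInstance : Normal ℚ (IntermediateField.normalClosure ℚ L Qb))) g'
      exact this ⟨x, hle hx, rfl⟩
    rw [hgg' x (hle hx), hgg' (g' x) hx']
  have h3 : (2 : O) * ((d g : O) - (d g' : O)) ∈ maximalIdeal O ^ n := by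
    have e : (2 : O) * ((d g : O) - (d g' : O)) =
        (t g - t g') * t g + t g' * (t g - t g') - (t (g * g) - t (g' * g')) := by
      rw [mul_sub, key g, key g']
      ring
    rw [e]
    exact Ideal.sub_mem _ (Ideal.add_mem _ (Ideal.mul_mem_right _ _ h1)
      (Ideal.mul_mem_left _ _ h1)) h2'
  obtain ⟨u, hu⟩ := h2
  have h4 : ((u⁻¹ : Oˣ) : O) * ((2 : O) * ((d g : O) - (d g' : O))) ∈ maximalIdeal O ^ n :=
    Ideal.mul_mem_left _ _ h3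
  rwa [← mul_assoc, ← hu, Units.inv_mul, one_mul] at h4

end Trace

section Hecke

variable {lam N : ℕ} [NeZero N] {S : Finset ℕ} {O' : Type} [CommRing O'] [IsDomain O']
  [IsDiscreteValuationRing O'] {χ : CuspForm.heckeAlgebra N 2 (↑S : Set ℕ) →+* O'}

/-- **(CH2)** approximation of `σ` by a Frobenius element at a prime `ℓ ∤ N`, `ℓ ∉ S`, `ℓ ∉ T`
for a Hecke pseudo-character: `χ (T_ℓ) ≡ H.t σ` modulo `𝔪 ^ n`. -/
theorem exists_frob_approx_hecke (H : HeckePseudoChar lam N S O' χ) (n : ℕ)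
    (L₀ : IntermediateField ℚ Qb) (hL₀ : FiniteDimensional ℚ L₀) (σ : GQ) (T : Finset ℕ) :
    ∃ (ℓ : ℕ) (hℓ : ℓ.Prime) (hℓN : ¬ ℓ ∣ N) (hℓS : ℓ ∉ (↑S : Set ℕ)), ℓ ∉ T ∧
      ∃ (A : ValuationSubring Qb) (φ : GQ),
        A.LiesOverPrime ℓ ∧ A.IsFrobeniusAt φ ℓ ∧ (∀ x ∈ L₀, φ x = σ x) ∧
        H.t φ = χ (CuspForm.heckeAlgebra.T hℓ hℓN hℓS) ∧
        ((H.d φ : O'ˣ) : O') = (ℓ : O') ∧
        χ (CuspForm.heckeAlgebra.T hℓ hℓN hℓS) - H.t σ ∈ maximalIdeal O' ^ n := by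
  obtain ⟨ℓ, hℓ, hℓT, A, φ, hA, hφ, h, htφ⟩ :=
    exists_frob_approx_trace H.cont n L₀ hL₀ σ (T ∪ S ∪ N.primeFactors)
  have hℓT' : ℓ ∉ T := fun h' => hℓT (Finset.mem_union_left _ (Finset.mem_union_left _ h'))
  have hℓS : ℓ ∉ (↑S : Set ℕ) := fun h' =>
    hℓT (Finset.mem_union_left _ (Finset.mem_union_right _ (Finset.mem_coe.mp h')))
  have hℓN : ¬ ℓ ∣ N := fun h' =>
    hℓT (Finset.mem_union_right _ (Nat.mem_primeFactors.mpr ⟨hℓ, h', NeZero.ne N⟩))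
  obtain ⟨e1, e2⟩ := H.frob ℓ hℓ hℓN hℓS A hA φ hφ
  exact ⟨ℓ, hℓ, hℓN, hℓS, hℓT', A, φ, hA, hφ, h, e1, e2, e1 ▸ htφ⟩

/-- **(CH2')** in addition `(ℓ : O') ≡ H.d σ` modulo `𝔪 ^ n`, when `2` is a unit of `O'`. -/
theorem exists_frob_approx_hecke_det (H : HeckePseudoChar lam N S O' χ) (h2 : IsUnit (2 : O'))
    (n : ℕ) (L₀ : IntermediateField ℚ Qb) (hL₀ : FiniteDimensional ℚ L₀) (σ : GQ) (T : Finset ℕ) :
    ∃ (ℓ : ℕ) (hℓ : ℓ.Prime) (hℓN : ¬ ℓ ∣ N) (hℓS : ℓ ∉ (↑S : Set ℕ)), ℓ ∉ T ∧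
      ∃ (A : ValuationSubring Qb) (φ : GQ),
        A.LiesOverPrime ℓ ∧ A.IsFrobeniusAt φ ℓ ∧ (∀ x ∈ L₀, φ x = σ x) ∧
        H.t φ = χ (CuspForm.heckeAlgebra.T hℓ hℓN hℓS) ∧
        ((H.d φ : O'ˣ) : O') = (ℓ : O') ∧
        χ (CuspForm.heckeAlgebra.T hℓ hℓN hℓS) - H.t σ ∈ maximalIdeal O' ^ n ∧
        (ℓ : O') - ((H.d σ : O'ˣ) : O') ∈ maximalIdeal O' ^ n := by
  obtain ⟨ℓ, hℓ, hℓT, A, φ, hA, hφ, h, htφ, hdφ⟩ :=
    exists_frob_approx_trace₂ H.cont (adicContinuous_det H.P3 H.P1 h2 H.cont) n L₀ hL₀ σ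
      (T ∪ S ∪ N.primeFactors)
  have hℓT' : ℓ ∉ T := fun h' => hℓT (Finset.mem_union_left _ (Finset.mem_union_left _ h'))
  have hℓS : ℓ ∉ (↑S : Set ℕ) := fun h' =>
    hℓT (Finset.mem_union_left _ (Finset.mem_union_right _ (Finset.mem_coe.mp h')))
  have hℓN : ¬ ℓ ∣ N := fun h' =>
    hℓT (Finset.mem_union_right _ (Nat.mem_primeFactors.mpr ⟨hℓ, h', NeZero.ne N⟩))
  obtain ⟨e1, e2⟩ := H.frob ℓ hℓ hℓN hℓS A hA φ hφ
  refine ⟨ℓ, hℓ, hℓN, hℓS, hℓT', A, φ, hA, hφ, h, e1, e2, e1 ▸ htφ, ?_⟩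
  have h' : ((H.d φ : O'ˣ) : O') - ((H.d σ : O'ˣ) : O') ∈ maximalIdeal O' ^ n := hdφ
  rwa [e2] at h'

end Hecke

section Residual

variable {k : Type} [Field k]

/-- A residual representation takes the same value at two elements agreeing on its level. -/
theorem residual_eq_of_eqOn (ρ : ResidualGaloisRep k) {L : IntermediateField ℚ Qb}
    (hρ : ∀ τ : GQ, (∀ x ∈ L, τ x = x) → ρ.ρ τ = 1) {φ σ : GQ} (h : ∀ x ∈ L, φ x = σ x) :
    ρ.ρ φ = ρ.ρ σ := by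
  have h1 : ρ.ρ (σ⁻¹ * φ) = 1 := hρ _ fun x hx => by
    rw [AlgEquiv.mul_apply, h x hx]
    exact σ.symm_apply_apply x
  have h2 : φ = σ * (σ⁻¹ * φ) := by rw [mul_inv_cancel_left]
  rw [h2, map_mul, h1, mul_one]

/-- **(CH3)** approximation of `σ` by a Frobenius element on `L₀` and for a residual
representation. -/
theorem exists_frob_approx_residual (ρ : ResidualGaloisRep k)
    (L₀ : IntermediateField ℚ Qb) (hL₀ : FiniteDimensional ℚ L₀) (σ : GQ) (T : Finset ℕ) :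
    ∃ ℓ : ℕ, ℓ.Prime ∧ ℓ ∉ T ∧ ∃ (A : ValuationSubring Qb) (φ : GQ),
      A.LiesOverPrime ℓ ∧ A.IsFrobeniusAt φ ℓ ∧ (∀ x ∈ L₀, φ x = σ x) ∧ ρ.ρ φ = ρ.ρ σ := by
  obtain ⟨L₁, hL₁, h₁⟩ := ρ.factorsThroughFiniteLevel
  haveI := hL₀
  haveI := hL₁
  have hL : FiniteDimensional ℚ ↥(L₀ ⊔ L₁) := IntermediateField.finiteDimensional_sup L₀ L₁
  obtain ⟨ℓ, hℓ, hℓT, A, φ, hA, hφ, h⟩ := exists_frob_eqOn (L₀ ⊔ L₁) hL σ T
  exact ⟨ℓ, hℓ, hℓT, A, φ, hA, hφ, fun x hx => h x ((le_sup_left : L₀ ≤ L₀ ⊔ L₁) hx),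
    residual_eq_of_eqOn ρ h₁ fun x hx => h x ((le_sup_right : L₁ ≤ L₀ ⊔ L₁) hx)⟩

/-- **(CH3')** the same for two residual representations (possibly over different fields). -/
theorem exists_frob_approx_residual₂ {k' : Type} [Field k'] (ρ : ResidualGaloisRep k)
    (ρ' : ResidualGaloisRep k')
    (L₀ : IntermediateField ℚ Qb) (hL₀ : FiniteDimensional ℚ L₀) (σ : GQ) (T : Finset ℕ) :
    ∃ ℓ : ℕ, ℓ.Prime ∧ ℓ ∉ T ∧ ∃ (A : ValuationSubring Qb) (φ : GQ),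
      A.LiesOverPrime ℓ ∧ A.IsFrobeniusAt φ ℓ ∧ (∀ x ∈ L₀, φ x = σ x) ∧ ρ.ρ φ = ρ.ρ σ ∧
      ρ'.ρ φ = ρ'.ρ σ := by
  obtain ⟨L₁, hL₁, h₁⟩ := ρ'.factorsThroughFiniteLevel
  haveI := hL₀
  haveI := hL₁
  have hL : FiniteDimensional ℚ ↥(L₀ ⊔ L₁) := IntermediateField.finiteDimensional_sup L₀ L₁
  obtain ⟨ℓ, hℓ, hℓT, A, φ, hA, hφ, h, hρ⟩ := exists_frob_approx_residual ρ (L₀ ⊔ L₁) hL σ T
  exact ⟨ℓ, hℓ, hℓT, A, φ, hA, hφ, fun x hx => h x ((le_sup_left : L₀ ≤ L₀ ⊔ L₁) hx), hρ,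
    residual_eq_of_eqOn ρ' h₁ fun x hx => h x ((le_sup_right : L₁ ≤ L₀ ⊔ L₁) hx)⟩

variable {lam N : ℕ} [NeZero N] {S : Finset ℕ} {O' : Type} [CommRing O'] [IsDomain O']
  [IsDiscreteValuationRing O'] {χ : CuspForm.heckeAlgebra N 2 (↑S : Set ℕ) →+* O'}

/-- **(CH4)** a Hecke pseudo-character modulo `𝔪 ^ n` and a residual representation at once. -/
theorem exists_frob_approx_hecke_residual (H : HeckePseudoChar lam N S O' χ)
    (ρ : ResidualGaloisRep k) (n : ℕ)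
    (L₀ : IntermediateField ℚ Qb) (hL₀ : FiniteDimensional ℚ L₀) (σ : GQ) (T : Finset ℕ) :
    ∃ (ℓ : ℕ) (hℓ : ℓ.Prime) (hℓN : ¬ ℓ ∣ N) (hℓS : ℓ ∉ (↑S : Set ℕ)), ℓ ∉ T ∧
      ∃ (A : ValuationSubring Qb) (φ : GQ),
        A.LiesOverPrime ℓ ∧ A.IsFrobeniusAt φ ℓ ∧ (∀ x ∈ L₀, φ x = σ x) ∧
        H.t φ = χ (CuspForm.heckeAlgebra.T hℓ hℓN hℓS) ∧
        ((H.d φ : O'ˣ) : O') = (ℓ : O') ∧
        χ (CuspForm.heckeAlgebra.T hℓ hℓN hℓS) - H.t σ ∈ maximalIdeal O' ^ n ∧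
        ρ.ρ φ = ρ.ρ σ := by
  obtain ⟨L₁, hL₁, h₁⟩ := ρ.factorsThroughFiniteLevel
  haveI := hL₀
  haveI := hL₁
  have hL : FiniteDimensional ℚ ↥(L₀ ⊔ L₁) := IntermediateField.finiteDimensional_sup L₀ L₁
  obtain ⟨ℓ, hℓ, hℓN, hℓS, hℓT, A, φ, hA, hφ, h, e1, e2, e3⟩ :=
    exists_frob_approx_hecke H n (L₀ ⊔ L₁) hL σ T
  exact ⟨ℓ, hℓ, hℓN, hℓS, hℓT, A, φ, hA, hφ, fun x hx => h x ((le_sup_left : L₀ ≤ L₀ ⊔ L₁) hx),
    e1, e2, e3, residual_eq_of_eqOn ρ h₁ fun x hx => h x ((le_sup_right : L₁ ≤ L₀ ⊔ L₁) hx)⟩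

end Residual

end Fermat.Agent.EC.Pseudo.ChebApprox
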