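import Mathlib
import Fermat.Agent.EC.Pseudo.ChebApprox
import Fermat.Agent.Pseudo.CycloAdic

/-!
# Program E (S58), node PS-3, part 1: the determinant of a Hecke pseudo-character is the cyclotomic
character

`H : HeckePseudoChar lam M S ℤ_[lam] χ`, `lam` an odd prime, `lam ∈ S`.

* `d_eq_cycAdic` : `H.d σ = cycAdic lam σ` for EVERY `σ` (Chebotarev approximation `(CH2')` of
  `EC/Pseudo/ChebApprox` + continuity of the cyclotomic character);
* `d_eq_one_of_mem_inertia` : `H.d s = 1` for `s` in an inertia group at a prime `q ≠ lam`;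
* `d_frobenius` : `H.d σ = q` for a Frobenius element `σ` at ANY prime `q ≠ lam` (dividing the
  level or not);
* `t_sq_frobenius` : `H.t (σ * σ) = H.t σ ^ 2 - 2 q`;
* helpers on `ℤ_[lam]` : `maximalIdeal_pow`, `isUnit_two`, `eq_of_forall_sub_mem`,
  `intCast_mem_maximalIdeal_pow_iff`.
-/

set_option autoImplicit false

open IsLocalRing

namespace Fermat.Agent.EC.Pseudo.DetCyc

open Fermat.Agent.Pseudo Fermat.Agent.Pseudo.Cyc Fermat.Agent.EC.Pseudo.ChebApprox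

local notation "Qb" => AlgebraicClosure ℚ
local notation "GQ" => (AlgebraicClosure ℚ ≃ₐ[ℚ] AlgebraicClosure ℚ)

section Padic

variable (lam : ℕ) [hlam : Fact lam.Prime]

/-- the powers of the maximal ideal of `ℤ_[lam]` -/
theorem maximalIdeal_pow (n : ℕ) :
    maximalIdeal ℤ_[lam] ^ n = Ideal.span {(lam : ℤ_[lam]) ^ n} := by
  rw [PadicInt.maximalIdeal_eq_span_p, Ideal.span_singleton_pow]

/-- `2` is a unit of `ℤ_[lam]` for `lam` odd -/
theorem isUnit_two (hlam2 : lam ≠ 2) : IsUnit (2 : ℤ_[lam]) := by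
  have h : IsUnit ((2 : ℕ) : ℤ_[lam]) := by
    rw [PadicInt.isUnit_iff, PadicInt.norm_natCast_eq_one_iff]
    exact (Nat.coprime_primes hlam.out Nat.prime_two).mpr hlam2
  simpa using h

/-- `ℤ_[lam]` is separated -/
theorem eq_of_forall_sub_mem {x y : ℤ_[lam]}
    (h : ∀ n : ℕ, x - y ∈ maximalIdeal ℤ_[lam] ^ n) : x = y := by
  rw [← sub_eq_zero]
  by_contra hne
  obtain ⟨n, hn⟩ := PadicInt.exists_pow_neg_lt lam (norm_pos_iff.mpr hne)
  have h1 := h n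
  rw [maximalIdeal_pow, ← PadicInt.norm_le_pow_iff_mem_span_pow] at h1
  exact absurd (lt_of_le_of_lt h1 hn) (lt_irrefl _)

/-- an integer lies in `𝔪 ^ n` iff it is divisible by `lam ^ n` -/
theorem intCast_mem_maximalIdeal_pow_iff (z : ℤ) (n : ℕ) :
    (z : ℤ_[lam]) ∈ maximalIdeal ℤ_[lam] ^ n ↔ ((lam ^ n : ℕ) : ℤ) ∣ z := by
  rw [maximalIdeal_pow, ← PadicInt.norm_le_pow_iff_mem_span_pow, PadicInt.norm_int_le_pow_iff_dvd,
    Nat.cast_pow]

end Padic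

section Det

variable {lam M : ℕ} [NeZero M] [hlam : Fact lam.Prime] {S : Finset ℕ}
  {χ : CuspForm.heckeAlgebra M 2 (↑S : Set ℕ) →+* ℤ_[lam]}
  (H : HeckePseudoChar lam M S ℤ_[lam] χ)

/-- **The determinant of a Hecke pseudo-character is the cyclotomic character.** -/
theorem d_eq_cycAdic (hlam2 : lam ≠ 2) (hlamS : lam ∈ S) (σ : GQ) :
    ((H.d σ : ℤ_[lam]ˣ) : ℤ_[lam]) = ((cycAdic lam σ : ℤ_[lam]ˣ) : ℤ_[lam]) := by
  refine eq_of_forall_sub_mem lam fun n => ?_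
  obtain ⟨L, hL, hcyc⟩ := exists_finite_level_cycAdic lam n
  obtain ⟨ℓ, hℓ, -, hℓS, -, A, φ, hA, hφ, hφσ, -, -, -, hd⟩ :=
    exists_frob_approx_hecke_det H (isUnit_two lam hlam2) n L hL σ ∅
  have hℓlam : ℓ ≠ lam := fun h => hℓS (h ▸ Finset.mem_coe.mpr hlamS)
  have h1 := hcyc φ σ hφσ
  rw [cycAdic_frobenius lam hℓ hℓlam A hA hφ, ← maximalIdeal_pow] at h1
  have : ((H.d σ : ℤ_[lam]ˣ) : ℤ_[lam]) - ((cycAdic lam σ : ℤ_[lam]ˣ) : ℤ_[lam]) =
      ((ℓ : ℤ_[lam]) - ((cycAdic lam σ : ℤ_[lam]ˣ) : ℤ_[lam])) -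
        ((ℓ : ℤ_[lam]) - ((H.d σ : ℤ_[lam]ˣ) : ℤ_[lam])) := by ring
  rw [this]
  exact Ideal.sub_mem _ h1 hd

/-- `H.d` is trivial on the inertia groups at the primes `q ≠ lam` -/
theorem d_eq_one_of_mem_inertia (hlam2 : lam ≠ 2) (hlamS : lam ∈ S) {q : ℕ} (hq : q.Prime)
    (hqlam : q ≠ lam) (B : ValuationSubring Qb) (hB : B.LiesOverPrime q) {s : GQ}
    (hs : s ∈ B.inertiaSubgroupIn ℚ) : ((H.d s : ℤ_[lam]ˣ) : ℤ_[lam]) = 1 := by
  rw [d_eq_cycAdic H hlam2 hlamS, cycAdic_eq_one_of_mem_inertia lam hq hqlam B hB hs,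
    Units.val_one]

/-- `H.d σ = q` for a Frobenius element at ANY prime `q ≠ lam` -/
theorem d_frobenius (hlam2 : lam ≠ 2) (hlamS : lam ∈ S) {q : ℕ} (hq : q.Prime)
    (hqlam : q ≠ lam) (B : ValuationSubring Qb) (hB : B.LiesOverPrime q) {σ : GQ}
    (hσ : B.IsFrobeniusAt σ q) : ((H.d σ : ℤ_[lam]ˣ) : ℤ_[lam]) = (q : ℤ_[lam]) := by
  rw [d_eq_cycAdic H hlam2 hlamS, cycAdic_frobenius lam hq hqlam B hB hσ]

/-- the trace of a square -/
theorem t_sq (σ : GQ) :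
    H.t (σ * σ) = H.t σ ^ 2 - 2 * ((H.d σ : ℤ_[lam]ˣ) : ℤ_[lam]) := by
  have h := H.P3 σ σ
  rw [mul_inv_cancel, H.P1] at h
  linear_combination h

end Det

end Fermat.Agent.EC.Pseudo.DetCyc
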