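import Fermat.Agent.S37
import Fermat.Agent.Jac.KummerMapsFinal
import Fermat.Agent.BR2.S35Span
import Fermat.Agent.BR2.S35Final
import Fermat.Agent.BR2.E7PlugFinal
import Fermat.Agent.BR2.GeoLevel
import Fermat.Agent.BR2.StrongMultOne
import Fermat.Agent.BR.Inst.AnnulusInstFinal

/-!
# Program E (S58), block PSEUDO, node (PS-X) (2ii): the trace identity at the primes `q ∥ M`

The inside of the proof of S35 (`Fermat/Agent/S35.lean`), exported for an ARBITRARY Hecke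
pseudo-character `H` of the eigencharacter of a newform `g` of level `M` (the binders
`chig hchig iota hlamS hMS` are those of the frozen statements S35/S36, any complete DVR `O'` of
residue characteristic `λ`):

* **`t_sq_eq_of_frobenius`** : `q` prime, `q ≠ λ`, `q ∣ M`, `¬ q² ∣ M`, `B` over `q`, `σ` a Frobenius
  element at `B`  ⟹  `H.t σ ^ 2 = ((q : O') + 1) ^ 2`
  (`BR2.traceSq_of_geoInputSpan` fed with `BR2.S35Final.exists_geoInputSpan`, `E7PlugFinal`,
  `GeoLevel`, `StrongMultOne` and `AnnulusInstFinal.modularData_final`, as in `S35.lean`);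
* `t_sq_eq_of_factorization` : the same with `M.factorization q = 1`;
* `t_eq_or_eq_neg` : `H.t σ = q + 1 ∨ H.t σ = -(q + 1)`.
-/

set_option autoImplicit false
set_option linter.unusedSectionVars false
set_option linter.style.haveILetI false

open CuspForm CuspForm.IsNewform

namespace Fermat.Agent.EC.Pseudo.ExtractS35

open Fermat.Agent.Pseudo

local notation "Qb" => AlgebraicClosure ℚ
local notation "GQ" => (AlgebraicClosure ℚ ≃ₐ[ℚ] AlgebraicClosure ℚ)

/-- **(PS-X) (2ii)**: the trace identity of S35 at a Frobenius element at a prime `q ∥ M`, for any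
Hecke pseudo-character of the eigencharacter of the newform `g`. -/
theorem t_sq_eq_of_frobenius
    {M : ℕ} [NeZero M] {g : CuspForm (CongruenceSubgroup.Gamma0 M) 2} (hg : g.IsNewform)
    (lam : ℕ) [Fact lam.Prime]
    (S : Finset ℕ)
    (O' : Type) [CommRing O'] [IsDomain O'] [IsDiscreteValuationRing O']
    [IsAdicComplete (IsLocalRing.maximalIdeal O') O']
    [CharZero O'] (hlamO' : (lam : O') ∈ IsLocalRing.maximalIdeal O')
    (chig : CuspForm.heckeAlgebra M 2 (↑S : Set ℕ) →+* ℂ)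
    (hchig : ∀ (ℓ : ℕ) (hℓ : ℓ.Prime) (hℓM : ¬ ℓ ∣ M) (hℓS : ℓ ∉ (↑S : Set ℕ)),
      chig (CuspForm.heckeAlgebra.T hℓ hℓM hℓS) = ModularFormClass.qCoeff g ℓ)
    (iota : chig.range →+* O')
    (hlamS : lam ∈ S) (hMS : ∀ q : ℕ, q.Prime → q ∣ M → q ∈ S)
    (H : HeckePseudoChar lam M S O' (iota.comp chig.rangeRestrict))
    {q : ℕ} (hq : q.Prime) (hqlam : q ≠ lam) (hqM : q ∣ M) (hq2 : ¬ q ^ 2 ∣ M)
    (B : ValuationSubring Qb) (hB : B.LiesOverPrime q) {σ : GQ} (hσ : B.IsFrobeniusAt σ q) :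
    H.t σ ^ 2 = ((q : O') + 1) ^ 2 := by
  have h37 := Fermat.Agent.S37.result M lam (Fermat.Agent.Jac.heckeOperatorsCommuteBar M)
  obtain ⟨S', hSS', hgeo⟩ : ∃ (S' : Finset ℕ) (hSS' : S ⊆ S'),
      Fermat.Agent.BR2.GeoInputSpan M lam S'
        ((iota.comp chig.rangeRestrict).comp (Fermat.Agent.BR2.heckeAlgebraIncl hSS')) q σ := by
    clear H h37
    obtain ⟨M0, rfl⟩ : ∃ M0, M = M0 * q := ⟨M / q, (Nat.div_mul_cancel hqM).symm⟩
    have hM0 : M0 ≠ 0 := fun h => NeZero.ne (M0 * q) (by rw [h, zero_mul])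
    haveI : NeZero M0 := ⟨hM0⟩
    haveI : NeZero q := ⟨hq.ne_zero⟩
    have hqM0 : ¬ q ∣ M0 := fun h => hq2 (by rw [pow_two]; exact mul_dvd_mul_right h q)
    have hne : M0 ≠ M0 * q := fun h => by
      have h1 : M0 * 1 = M0 * q := by rw [mul_one]; exact h
      exact hq.one_lt.ne (Nat.eq_of_mul_eq_mul_left (Nat.pos_of_ne_zero hM0) h1)
    exact Fermat.Agent.BR2.S35Final.exists_geoInputSpan M0 q lam S _ σ
      (Fact.out : lam.Prime).ne_zero hq hqM0 hMS
      (fun S' hSS' =>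
        Fermat.Agent.BR2.E7PlugFinal.e7OutProp_of_hN5 M0 q hq hqM0 S S' hSS' hMS chig hchig iota
          (Fermat.Agent.BR2.StrongMultOne.not_exists_eigenform_of_isNewform hg
            (dvd_mul_right M0 q) hne S'))
      (fun ℓ' _ _ _ hqM' h2 h3 =>
        Fermat.Agent.BR2.GeoLevel.geoLevel (M0 * ℓ') q lam hq hqM' h2 h3 Fact.out hqlam B hB hσ
          (fun _ _ _ _ hqM'' _ _ B' hB' _ =>
            ⟨Fermat.Agent.BR.Inst.AnnulusInstFinal.modularData_final B' hB' hqM''⟩))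
  exact Fermat.Agent.BR2.traceSq_of_geoInputSpan lam S O' hlamO' hlamS hMS h37
    (iota.comp chig.rangeRestrict) H hq hqlam B hB hσ S' hSS' hgeo

/-- `q ∣ M ∧ ¬ q² ∣ M` from `M.factorization q = 1`. -/
theorem dvd_and_not_sq_dvd_of_factorization {M q : ℕ} [NeZero M] (hq : q.Prime)
    (hfac : M.factorization q = 1) : q ∣ M ∧ ¬ q ^ 2 ∣ M := by
  have hM : M ≠ 0 := NeZero.ne M
  refine ⟨?_, fun h => ?_⟩
  · have h1 : q ^ 1 ∣ M := (hq.pow_dvd_iff_le_factorization hM).mpr (by rw [hfac])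
    simpa using h1
  · have h2 := (hq.pow_dvd_iff_le_factorization hM).mp h
    rw [hfac] at h2
    omega

/-- **(PS-X) (2ii)**, the hypothesis in the form `M.factorization q = 1` (binder map `P5`). -/
theorem t_sq_eq_of_factorization
    {M : ℕ} [NeZero M] {g : CuspForm (CongruenceSubgroup.Gamma0 M) 2} (hg : g.IsNewform)
    (lam : ℕ) [Fact lam.Prime]
    (S : Finset ℕ)
    (O' : Type) [CommRing O'] [IsDomain O'] [IsDiscreteValuationRing O']
    [IsAdicComplete (IsLocalRing.maximalIdeal O') O']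
    [CharZero O'] (hlamO' : (lam : O') ∈ IsLocalRing.maximalIdeal O')
    (chig : CuspForm.heckeAlgebra M 2 (↑S : Set ℕ) →+* ℂ)
    (hchig : ∀ (ℓ : ℕ) (hℓ : ℓ.Prime) (hℓM : ¬ ℓ ∣ M) (hℓS : ℓ ∉ (↑S : Set ℕ)),
      chig (CuspForm.heckeAlgebra.T hℓ hℓM hℓS) = ModularFormClass.qCoeff g ℓ)
    (iota : chig.range →+* O')
    (hlamS : lam ∈ S) (hMS : ∀ q : ℕ, q.Prime → q ∣ M → q ∈ S)
    (H : HeckePseudoChar lam M S O' (iota.comp chig.rangeRestrict))
    {q : ℕ} (hq : q.Prime) (hqlam : q ≠ lam) (hfac : M.factorization q = 1)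
    (B : ValuationSubring Qb) (hB : B.LiesOverPrime q) {σ : GQ} (hσ : B.IsFrobeniusAt σ q) :
    H.t σ ^ 2 = ((q : O') + 1) ^ 2 :=
  t_sq_eq_of_frobenius hg lam S O' hlamO' chig hchig iota hlamS hMS H hq hqlam
    (dvd_and_not_sq_dvd_of_factorization hq hfac).1
    (dvd_and_not_sq_dvd_of_factorization hq hfac).2 B hB hσ

/-- The two possible traces at a Frobenius element at `q ∥ M`. -/
theorem t_eq_or_eq_neg
    {M : ℕ} [NeZero M] {g : CuspForm (CongruenceSubgroup.Gamma0 M) 2} (hg : g.IsNewform)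
    (lam : ℕ) [Fact lam.Prime]
    (S : Finset ℕ)
    (O' : Type) [CommRing O'] [IsDomain O'] [IsDiscreteValuationRing O']
    [IsAdicComplete (IsLocalRing.maximalIdeal O') O']
    [CharZero O'] (hlamO' : (lam : O') ∈ IsLocalRing.maximalIdeal O')
    (chig : CuspForm.heckeAlgebra M 2 (↑S : Set ℕ) →+* ℂ)
    (hchig : ∀ (ℓ : ℕ) (hℓ : ℓ.Prime) (hℓM : ¬ ℓ ∣ M) (hℓS : ℓ ∉ (↑S : Set ℕ)),
      chig (CuspForm.heckeAlgebra.T hℓ hℓM hℓS) = ModularFormClass.qCoeff g ℓ)
    (iota : chig.range →+* O')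
    (hlamS : lam ∈ S) (hMS : ∀ q : ℕ, q.Prime → q ∣ M → q ∈ S)
    (H : HeckePseudoChar lam M S O' (iota.comp chig.rangeRestrict))
    {q : ℕ} (hq : q.Prime) (hqlam : q ≠ lam) (hqM : q ∣ M) (hq2 : ¬ q ^ 2 ∣ M)
    (B : ValuationSubring Qb) (hB : B.LiesOverPrime q) {σ : GQ} (hσ : B.IsFrobeniusAt σ q) :
    H.t σ = (q : O') + 1 ∨ H.t σ = -((q : O') + 1) :=
  sq_eq_sq_iff_eq_or_eq_neg.mp
    (t_sq_eq_of_frobenius hg lam S O' hlamO' chig hchig iota hlamS hMS H hq hqlam hqM hq2 B hB hσ)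

end Fermat.Agent.EC.Pseudo.ExtractS35
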