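import Fermat.Agent.BR3.S36Plug
import Fermat.Agent.BR3.SDD.ModularProvider
import Fermat.Agent.BR3.SDD.ModularFinalDone

/-!
# Program E (S58), node PS-X (2i): the S36-internal statement on the pseudo-character

The frozen statement S36 speaks about a `GaloisRepAdic` and needs the hypothesis `hres`.  Its proof
(`BR3/S36Span.s36_of_inertiaFields`) goes through the stronger, hypothesis-free statement on the
Hecke pseudo-character, which is what the level descent of S58 consumes:

* `newInvBoundedLevel_final` : the geometric contract (A') of Program C, from the landed stable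
  model (`ModularFinal.modelAt_final` through `Modular.modelProvider_of_modelAt_frame`);
* `exists_inertiaFields_of_newform` : the inertia input of `S36Span` at EVERY valuation ring `B` of
  `ℚ̄` over a prime `q ≠ lam` with `v_q(M) = 2`, for the eigencharacter of a newform `g` of level `M`;
* **`exists_inertia_t_ne_two`** : for a newform `g` of level `M`, `lam` an odd prime, ANY Hecke
  pseudo-character `H` of the eigencharacter of `g` (e.g. `Pseudo.heckePseudoChar_JZero`), a prime
  `q ≠ lam` with `v_q(M) = 2` and EVERY valuation ring `B` of `ℚ̄` over `q`: there is `s` in the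
  inertia group of `B` with `H.t s ≠ 2`.
-/

set_option autoImplicit false
set_option linter.style.haveILetI false
set_option linter.unusedSectionVars false

open ModularCurve CuspForm CuspForm.IsNewform Polynomial

namespace Fermat.Agent.EC.Pseudo.ExtractS36

open Fermat.Agent.Pseudo Fermat.Agent.BR2 Fermat.Agent.BR3 Fermat.Agent.BR3.S36Final
  Fermat.Agent.BR3.InertiaInput

local notation "Qb" => AlgebraicClosure ℚ

/-- **(A') of Program C, hypothesis-free**: `NewInvBoundedLevel (M * q) q lam B` for `X₀(M)` without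
elliptic points, `q ∤ M` prime, `lam ≠ q` prime, `B` over `q`. -/
theorem newInvBoundedLevel_final :
    ∀ (M q lam : ℕ) [NeZero M] [NeZero q], q.Prime → ¬ q ∣ M → lam.Prime → q ≠ lam →
      ModularCurve.nuTwo M = 0 → ModularCurve.nuThree M = 0 →
      ∀ B : ValuationSubring Qb, B.LiesOverPrime q → NewInvBoundedLevel (M * q) q lam B :=
  Fermat.Agent.BR3.S36Plug.newInvBoundedLevel_of_provider
    (Fermat.Agent.BR3.SDD.Modular.modelProvider_of_modelAt_frame
      (fun M q lam _ _ _ hqM hlam hqlam h2 h3 B hB _ _ ζ hζ =>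
        Fermat.Agent.BR3.SDD.ModularFinal.modelAt_final M q lam hqM hlam hqlam h2 h3 B hB ζ hζ))

section

variable {M : ℕ} [NeZero M] {g : CuspForm (CongruenceSubgroup.Gamma0 M) 2} (hg : g.IsNewform)
  (lam : ℕ) [hlam : Fact lam.Prime] (S : Finset ℕ)
  (O' : Type) [CommRing O'] [CharZero O']
  (chig : CuspForm.heckeAlgebra M 2 (↑S : Set ℕ) →+* ℂ)
  (hchig : ∀ (ℓ : ℕ) (hℓ : ℓ.Prime) (hℓM : ¬ ℓ ∣ M) (hℓS : ℓ ∉ (↑S : Set ℕ)),
    chig (CuspForm.heckeAlgebra.T hℓ hℓM hℓS) = ModularFormClass.qCoeff g ℓ)
  (iota : chig.range →+* O')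
  (hMS : ∀ q : ℕ, q.Prime → q ∣ M → q ∈ S)

include hg hchig hMS in
/-- **The inertia input of `S36Span` at every valuation ring over `q`**, `v_q(M) = 2`, `q ≠ lam`,
for the eigencharacter of the newform `g`. -/
theorem exists_inertiaFields_of_newform {q : ℕ} (hq : q.Prime) (hqlam : q ≠ lam)
    (hfac : M.factorization q = 2) (B : ValuationSubring Qb) (hB : B.LiesOverPrime q) :
    ∃ (S' : Finset ℕ) (hSS' : S ⊆ S'),
      InertiaFields M lam S' ((iota.comp chig.rangeRestrict).comp (heckeAlgebraIncl hSS')) B := by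
  have hq2M : q ^ 2 ∣ M :=
    (hq.pow_dvd_iff_le_factorization (NeZero.ne M)).mpr (le_of_eq hfac.symm)
  have hq3M : ¬ q ^ 3 ∣ M := by
    intro h
    have := (hq.pow_dvd_iff_le_factorization (NeZero.ne M)).mp h
    omega
  obtain ⟨M', rfl⟩ : ∃ M', M = M' * q * q := ⟨M / q ^ 2, by
    rw [mul_assoc, ← pow_two]; exact (Nat.div_mul_cancel hq2M).symm⟩
  have hM' : M' ≠ 0 := fun h => NeZero.ne (M' * q * q) (by rw [h, zero_mul, zero_mul])
  have : NeZero M' := ⟨hM'⟩
  have : NeZero q := ⟨hq.ne_zero⟩
  have hqM' : ¬ q ∣ M' := fun h => hq3M (by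
    obtain ⟨c, rfl⟩ := h
    exact ⟨c, by ring⟩)
  exact exists_inertiaInputSpan M' q lam S _ B hlam.out.ne_zero hq hqM'
    (fun S' hSS' =>
      Fermat.Agent.BR3.E7Q.e7OutProp_of_dvd (M' * q) q hq (dvd_mul_left q M') hg S S' hSS' hMS
        chig hchig iota)
    (fun ℓ' _ hℓ' hℓ'M e =>
      Fermat.Agent.BR3.S36OfGeo.squaresProp (M' * q) q ℓ' e hℓ' hℓ'M)
    (fun ℓ' _ hℓ' _ hqM h2 h3 =>
      newInvBoundedLevel_final (M' * ℓ') q lam hq hqM hlam.out hqlam h2 h3 B hB)

variable [IsDomain O'] [IsDiscreteValuationRing O']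
  [IsAdicComplete (IsLocalRing.maximalIdeal O') O']

include hg hchig hMS in
/-- **(PS-X, 2i) The S36-internal statement**: the pseudo-character of a newform of level `M` is not
identically `2` on the inertia group of ANY valuation ring of `ℚ̄` over a prime `q ≠ lam` with
`v_q(M) = 2` (`lam` odd). No hypothesis on the residual representation. -/
theorem exists_inertia_t_ne_two (hlamO' : (lam : O') ∈ IsLocalRing.maximalIdeal O')
    (hlam2 : lam ≠ 2) (hlamS : lam ∈ S)
    (H : HeckePseudoChar lam M S O' (iota.comp chig.rangeRestrict))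
    {q : ℕ} (hq : q.Prime) (hqlam : q ≠ lam) (hfac : M.factorization q = 2)
    (B : ValuationSubring Qb) (hB : B.LiesOverPrime q) :
    ∃ s ∈ B.inertiaSubgroupIn ℚ, H.t s ≠ 2 := by
  obtain ⟨S', hSS', hgeo⟩ :=
    exists_inertiaFields_of_newform hg lam S O' chig hchig iota hMS hq hqlam hfac B hB
  exact exists_t_ne_two_of_inertiaFields lam S O' hlamO' hlamS hMS
    (Fermat.Agent.S37.result M lam (Fermat.Agent.Jac.heckeOperatorsCommuteBar M)) hlam2
    (iota.comp chig.rangeRestrict) H hq hqlam B hB S' hSS' hgeo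

end

end Fermat.Agent.EC.Pseudo.ExtractS36
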