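import Mathlib
import Fermat.Prelude.Def_WeierstrassCurve_ConductorLevel

/-!
# Program E (S58), block PSEUDO, node PS-3, the arithmetic end

`dvd_conductorLevel_of_local` : a level `M` dividing a cube-free `N`, with no prime of exact
multiplicity two and whose primes of multiplicity one divide the discriminant, divides the
conductor level `rad |Δ|`.
-/

set_option autoImplicit false

namespace Fermat.Agent.EC.Pseudo.LevelArith

open WeierstrassCurve

/-- a natural number all of whose prime multiplicities are `≤ 1` on the primes of a squarefree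
number `C` and `0` elsewhere divides `C` -/
theorem dvd_of_factorization_le {M C : ℕ} (hM : M ≠ 0) (hC : C ≠ 0)
    (h : ∀ q : ℕ, q.Prime → M.factorization q ≤ C.factorization q) : M ∣ C := by
  rw [← Nat.factorization_le_iff_dvd hM hC]
  intro q
  by_cases hq : q.Prime
  · exact h q hq
  · rw [Nat.factorization_eq_zero_of_not_prime _ hq]
    exact Nat.zero_le _

/-- **The arithmetic end of PS-3**: `M ∣ N`, `N` cube-free, no prime `q` with `v_q(M) = 2`, and
every prime with `v_q(M) = 1` divides `Δ` ⇒ `M ∣ rad |Δ|`. -/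
theorem dvd_conductorLevel_of_local (W : WeierstrassCurve ℤ) (hΔ : W.Δ ≠ 0) {N M : ℕ}
    (hN0 : N ≠ 0) (hN3 : ∀ q : ℕ, q.Prime → ¬ q ^ 3 ∣ N) (hMN : M ∣ N)
    (h2 : ∀ q : ℕ, q.Prime → M.factorization q ≠ 2)
    (h1 : ∀ q : ℕ, q.Prime → M.factorization q = 1 → (q : ℤ) ∣ W.Δ) :
    M ∣ W.conductorLevel := by
  have hM0 : M ≠ 0 := fun h => hN0 (by rw [h] at hMN; exact Nat.eq_zero_of_zero_dvd hMN)
  have hC0 : W.conductorLevel ≠ 0 := W.conductorLevel_pos.ne'
  refine dvd_of_factorization_le hM0 hC0 fun q hq => ?_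
  -- `v_q(M) ≤ 2` since `M ∣ N` and `N` is cube-free
  have hle2 : M.factorization q ≤ 2 := by
    by_contra hlt
    rw [not_le] at hlt
    have h3 : q ^ 3 ∣ M := (hq.pow_dvd_iff_le_factorization hM0).mpr hlt
    exact hN3 q hq (h3.trans hMN)
  have hne2 := h2 q hq
  rcases Nat.lt_or_ge (M.factorization q) 1 with h0 | hge1
  · have : M.factorization q = 0 := by omega
    rw [this]
    exact Nat.zero_le _
  · have h1' : M.factorization q = 1 := by omega
    have hdvd : q ∣ W.conductorLevel := (W.prime_dvd_conductorLevel_iff hΔ hq).mpr (h1 q hq h1')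
    rw [h1']
    exact (hq.dvd_iff_one_le_factorization hC0).mp hdvd

end Fermat.Agent.EC.Pseudo.LevelArith
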