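import Fermat.Agent.EC.Pseudo.ExtractS35
import Fermat.Agent.EC.Pseudo.ExtractS36
import Fermat.Agent.EC.Hecke.PseudoChar
import Fermat.Agent.S54.Frobenius

/-!
# Program E (S58), block PSEUDO: the choice of `S` and the trace bundle of PS-3

* `levelSet N lam := insert lam N.primeFactors` with its bookkeeping lemmas
  (`lam_mem_levelSet`, `mem_levelSet_of_prime_dvd`, `not_mem_levelSet_iff`,
  `not_dvd_of_not_mem_levelSet`, `ne_of_not_mem_levelSet`, `mem_levelSet_of_dvd_delta`,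
  `isGoodPrimeFor_of_not_mem_levelSet`, and the `(↑S : Set ℕ)` forms);
* **`exists_traceBundle`** : for a newform `g` of level `M ∣ N` with `a_ℓ(g) = a_ℓ(W)` off `N`, an odd
  prime `lam` and ANY finite set `S ∋ lam` containing the primes of `N`: a character
  `χ : heckeAlgebra M 2 ↑S →+* ℤ_[lam]` with `χ (T_ℓ) = a_ℓ(W)`, a Hecke pseudo-character `H` of `χ`,
  and the two PS-X statements in the LITERAL shapes `h2i`, `h2ii` of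
  `LevelCore.dvd_delta_and_not_sq_dvd` (finding #1388):
  `(2i)` `M.factorization q = 2 → ∃ B ∣ q, ∃ s ∈ I_B, H.t s ≠ 2` (`ExtractS36`, helper1),
  `(2ii)` `q ∥ M → H.t σ ^ 2 = (q + 1) ^ 2` at the Frobenius elements at `q` (`ExtractS35`);
  (`HECKE-2` = `Hecke.PseudoChar.exists_chig_iota_pseudoChar`, helper14);
* `exists_traceBundle_levelSet` : the same at `S := levelSet N lam`, with `hlamS`, `hbadS`.
-/

set_option autoImplicit false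

open CuspForm ModularFormClass CongruenceSubgroup WeierstrassCurve Fermat.Agent.Pseudo

namespace Fermat.Agent.EC.Pseudo.LevelSet

local notation "Qb" => AlgebraicClosure ℚ
local notation "GQ" => (AlgebraicClosure ℚ ≃ₐ[ℚ] AlgebraicClosure ℚ)

/-! ### the set `S` -/

/-- **The set `S` of Program E**: `lam` and the primes of `N`. -/
def levelSet (N lam : ℕ) : Finset ℕ := insert lam N.primeFactors

theorem lam_mem_levelSet (N lam : ℕ) : lam ∈ levelSet N lam := Finset.mem_insert_self _ _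

theorem mem_levelSet_of_prime_dvd {N : ℕ} (lam : ℕ) (hN : N ≠ 0) {q : ℕ} (hq : q.Prime)
    (h : q ∣ N) : q ∈ levelSet N lam :=
  Finset.mem_insert_of_mem (Nat.mem_primeFactors.mpr ⟨hq, h, hN⟩)

theorem not_dvd_of_not_mem_levelSet {N lam : ℕ} (hN : N ≠ 0) {ℓ : ℕ} (hℓ : ℓ.Prime)
    (h : ℓ ∉ levelSet N lam) : ¬ ℓ ∣ N :=
  fun hd => h (mem_levelSet_of_prime_dvd lam hN hℓ hd)

theorem ne_of_not_mem_levelSet {N lam ℓ : ℕ} (h : ℓ ∉ levelSet N lam) : ℓ ≠ lam :=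
  fun he => h (he ▸ lam_mem_levelSet N lam)

theorem not_mem_levelSet_iff {N lam : ℕ} (hN : N ≠ 0) {ℓ : ℕ} (hℓ : ℓ.Prime) :
    ℓ ∉ levelSet N lam ↔ ¬ ℓ ∣ N ∧ ℓ ≠ lam := by
  refine ⟨fun h => ⟨not_dvd_of_not_mem_levelSet hN hℓ h, ne_of_not_mem_levelSet h⟩, ?_⟩
  rintro ⟨h1, h2⟩ hmem
  rcases Finset.mem_insert.mp hmem with h | h
  · exact h2 h
  · exact h1 (Nat.mem_primeFactors.mp h).2.1

/-- the same for the coercion to `Set ℕ` used by `heckeAlgebra M 2 ↑S` -/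
theorem not_mem_coe_levelSet_iff {N lam : ℕ} (hN : N ≠ 0) {ℓ : ℕ} (hℓ : ℓ.Prime) :
    ℓ ∉ (↑(levelSet N lam) : Set ℕ) ↔ ¬ ℓ ∣ N ∧ ℓ ≠ lam := by
  rw [Finset.mem_coe]
  exact not_mem_levelSet_iff hN hℓ

theorem not_dvd_of_not_mem_coe_levelSet {N lam : ℕ} (hN : N ≠ 0) {ℓ : ℕ} (hℓ : ℓ.Prime)
    (h : ℓ ∉ (↑(levelSet N lam) : Set ℕ)) : ¬ ℓ ∣ N :=
  ((not_mem_coe_levelSet_iff hN hℓ).mp h).1

theorem not_dvd_of_dvd_of_not_mem_coe_levelSet {N M lam : ℕ} (hN : N ≠ 0) (hMN : M ∣ N) {ℓ : ℕ}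
    (hℓ : ℓ.Prime) (h : ℓ ∉ (↑(levelSet N lam) : Set ℕ)) : ¬ ℓ ∣ M :=
  fun hd => not_dvd_of_not_mem_coe_levelSet hN hℓ h (hd.trans hMN)

/-- the bad primes of `W` lie in `S` -/
theorem mem_levelSet_of_dvd_delta (W : WeierstrassCurve ℤ) {N : ℕ} (lam : ℕ) (hN : N ≠ 0)
    (hbad : ∀ ℓ : ℕ, ℓ.Prime → (ℓ : ℤ) ∣ W.Δ → ℓ ∣ N) {ℓ : ℕ} (hℓ : ℓ.Prime)
    (h : (ℓ : ℤ) ∣ W.Δ) : ℓ ∈ levelSet N lam :=
  mem_levelSet_of_prime_dvd lam hN hℓ (hbad ℓ hℓ h)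

/-- the primes outside `S` are good for `W` -/
theorem isGoodPrimeFor_of_not_mem_levelSet (W : WeierstrassCurve ℤ) {N lam : ℕ} (hN : N ≠ 0)
    (hbad : ∀ ℓ : ℕ, ℓ.Prime → (ℓ : ℤ) ∣ W.Δ → ℓ ∣ N) {ℓ : ℕ} (hℓ : ℓ.Prime)
    (h : ℓ ∉ levelSet N lam) : W.IsGoodPrimeFor ℓ :=
  fun hd => h (mem_levelSet_of_dvd_delta W lam hN hbad hℓ hd)

/-! ### the trace bundle -/

/-- **The HECKE-2 + PS-X bundle of PS-3** in the literal shapes of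
`LevelCore.dvd_delta_and_not_sq_dvd`: `χ`, `H`, `hχ`, `h2i`, `h2ii`. -/
theorem exists_traceBundle (W : WeierstrassCurve ℤ) {M N : ℕ} [NeZero M] (hMN : M ∣ N)
    {g : CuspForm (Gamma0 M) 2} (hg : g.IsNewform)
    (ha : ∀ ℓ : ℕ, ℓ.Prime → ¬ ℓ ∣ N → qCoeff g ℓ = ((W.apOfModel ℓ : ℤ) : ℂ))
    (lam : ℕ) [Fact lam.Prime] (hlam2 : lam ≠ 2) (S : Finset ℕ) (hlamS : lam ∈ S)
    (hNS : ∀ q : ℕ, q.Prime → q ∣ N → q ∈ S) :
    ∃ (χ : heckeAlgebra M 2 (↑S : Set ℕ) →+* ℤ_[lam]) (H : HeckePseudoChar lam M S ℤ_[lam] χ),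
      (∀ (ℓ : ℕ) (hℓ : ℓ.Prime) (hℓM : ¬ ℓ ∣ M) (hℓS : ℓ ∉ (↑S : Set ℕ)),
        χ (heckeAlgebra.T hℓ hℓM hℓS) = ((W.apOfModel ℓ : ℤ) : ℤ_[lam])) ∧
      (∀ q : ℕ, q.Prime → q ≠ lam → M.factorization q = 2 →
        ∃ B : ValuationSubring Qb, B.LiesOverPrime q ∧
          ∃ s ∈ B.inertiaSubgroupIn ℚ, H.t s ≠ 2) ∧
      (∀ q : ℕ, q.Prime → q ≠ lam → q ∣ M → ¬ q ^ 2 ∣ M →
        ∀ B : ValuationSubring Qb, B.LiesOverPrime q → ∀ σ : GQ, B.IsFrobeniusAt σ q →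
          H.t σ ^ 2 = ((q : ℤ_[lam]) + 1) ^ 2) := by
  obtain ⟨chig, iota, hchig, hχ, ⟨H⟩⟩ :=
    Fermat.Agent.EC.Hecke.PseudoChar.exists_chig_iota_pseudoChar hMN hg.1
      (fun ℓ => W.apOfModel ℓ) ha lam S hlamS hNS
  have hMS : ∀ q : ℕ, q.Prime → q ∣ M → q ∈ S := fun q hq h => hNS q hq (h.trans hMN)
  have hlamO' := Fermat.Agent.EC.Hecke.PseudoChar.natCast_mem_maximalIdeal lam
  refine ⟨iota.comp chig.rangeRestrict, H, hχ, ?_, ?_⟩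
  · intro q hq hqlam hfac
    obtain ⟨B, hB⟩ : ∃ B : ValuationSubring Qb, B.LiesOverPrime q :=
      Fermat.Agent.S54.exists_valuationSubring_liesOver q hq
    exact ⟨B, hB, Fermat.Agent.EC.Pseudo.ExtractS36.exists_inertia_t_ne_two hg lam S ℤ_[lam]
      chig hchig iota hMS hlamO' hlam2 hlamS H hq hqlam hfac B hB⟩
  · intro q hq hqlam hqM hq2 B hB σ hσ
    exact Fermat.Agent.EC.Pseudo.ExtractS35.t_sq_eq_of_frobenius hg lam S ℤ_[lam] hlamO'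
      chig hchig iota hlamS hMS H hq hqlam hqM hq2 B hB hσ

/-- **The bundle at `S := levelSet N lam`**, with `hlamS` and `hbadS`. -/
theorem exists_traceBundle_levelSet (W : WeierstrassCurve ℤ) {M N : ℕ} [NeZero M] (hN : N ≠ 0)
    (hMN : M ∣ N) (hbad : ∀ ℓ : ℕ, ℓ.Prime → (ℓ : ℤ) ∣ W.Δ → ℓ ∣ N)
    {g : CuspForm (Gamma0 M) 2} (hg : g.IsNewform)
    (ha : ∀ ℓ : ℕ, ℓ.Prime → ¬ ℓ ∣ N → qCoeff g ℓ = ((W.apOfModel ℓ : ℤ) : ℂ))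
    (lam : ℕ) [Fact lam.Prime] (hlam2 : lam ≠ 2) :
    lam ∈ levelSet N lam ∧
    (∀ ℓ : ℕ, ℓ.Prime → (ℓ : ℤ) ∣ W.Δ → ℓ ∈ levelSet N lam) ∧
    ∃ (χ : heckeAlgebra M 2 (↑(levelSet N lam) : Set ℕ) →+* ℤ_[lam])
      (H : HeckePseudoChar lam M (levelSet N lam) ℤ_[lam] χ),
      (∀ (ℓ : ℕ) (hℓ : ℓ.Prime) (hℓM : ¬ ℓ ∣ M) (hℓS : ℓ ∉ (↑(levelSet N lam) : Set ℕ)),
        χ (heckeAlgebra.T hℓ hℓM hℓS) = ((W.apOfModel ℓ : ℤ) : ℤ_[lam])) ∧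
      (∀ q : ℕ, q.Prime → q ≠ lam → M.factorization q = 2 →
        ∃ B : ValuationSubring Qb, B.LiesOverPrime q ∧
          ∃ s ∈ B.inertiaSubgroupIn ℚ, H.t s ≠ 2) ∧
      (∀ q : ℕ, q.Prime → q ≠ lam → q ∣ M → ¬ q ^ 2 ∣ M →
        ∀ B : ValuationSubring Qb, B.LiesOverPrime q → ∀ σ : GQ, B.IsFrobeniusAt σ q →
          H.t σ ^ 2 = ((q : ℤ_[lam]) + 1) ^ 2) :=
  ⟨lam_mem_levelSet N lam, fun ℓ hℓ h => mem_levelSet_of_dvd_delta W lam hN hbad hℓ h,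
    exists_traceBundle W hMN hg ha lam hlam2 (levelSet N lam) (lam_mem_levelSet N lam)
      (fun q hq h => mem_levelSet_of_prime_dvd lam hN hq h)⟩

end Fermat.Agent.EC.Pseudo.LevelSet
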