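import Mathlib
import Fermat.Prelude.Def_FLTPrelim_GaloisRep

/-!
# Program E (S58), node PS-CH (second file): fields of definition of points

`S` a field, `K / S` an algebraic field extension, `W'` a Weierstrass curve over a subring, with the
Prelude's action `σ • P` of `K ≃ₐ[S] K` on the points `(W'⁄K).Point`.

* `pointField P : IntermediateField S K` : generated by the coordinates of `P`;
* `finiteDimensional_pointField` ;
* `smul_eq_smul_of_eqOn` : two automorphisms agreeing on `pointField P` move `P` to the same point;
* `smul_eq_self_of_eqOn` : if moreover one of them fixes `P`, so does the other;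
* `pointsField s` for a finite set `s` of points, `finiteDimensional_pointsField`,
  `pointField_le_pointsField` ;
* `finiteDimensional_adjoin_finset` : the field generated by a finite set of elements (roots of
  unity, …) is finite over `S`;
* `exists_field_points_elements` : one finite extension for a finite set of points and a finite set
  of elements: the input `L₀` of the approximation lemmas of `EC/Pseudo/ChebApprox.lean`;
* `isAlgebraic_Qb`, `finiteDimensional_pointField_rat`, `finiteDimensional_pointsField_rat`,
  `exists_field_points_elements_rat`, `exists_field_point_rat` : the case `ℚ̄ / ℚ`, for any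
  `ℚ`-algebra structure on `ℚ̄`.
-/

set_option autoImplicit false
set_option linter.unusedSectionVars false
set_option linter.style.haveILetI false

open WeierstrassCurve WeierstrassCurve.Affine WeierstrassCurve.Affine.Point

namespace Fermat.Agent.EC.Pseudo.PointField

universe r s v

variable {R : Type r} {S : Type s} {K : Type v} [CommRing R] [Field S] [Field K]
  [DecidableEq K] {W' : Affine R} [Algebra R S] [Algebra R K] [Algebra S K]
  [IsScalarTower R S K]

/-- The field generated over `S` by the coordinates of a point. -/
noncomputable def pointField : (W'⁄K).Point → IntermediateField S K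
  | 0 => ⊥
  | .some x y _ => IntermediateField.adjoin S {x, y}

theorem pointField_zero : pointField (S := S) (0 : (W'⁄K).Point) = ⊥ := rfl

theorem pointField_some {x y : K} (h : (W'⁄K).Nonsingular x y) :
    pointField (S := S) (Point.some x y h) = IntermediateField.adjoin S {x, y} := rfl

/-- The bottom intermediate field is finite over the base. -/
theorem finiteDimensional_bot (S : Type s) (K : Type v) [Field S] [Field K] [Algebra S K] :
    FiniteDimensional S (⊥ : IntermediateField S K) :=
  Module.finite_of_finrank_pos (by rw [IntermediateField.finrank_bot]; exact one_pos)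

/-- The field generated by a finite set of algebraic elements is finite. -/
theorem finiteDimensional_adjoin_finset [Algebra.IsAlgebraic S K] (s : Finset K) :
    FiniteDimensional S (IntermediateField.adjoin S (s : Set K)) :=
  IntermediateField.finiteDimensional_adjoin fun x _ =>
    (Algebra.IsAlgebraic.isAlgebraic x).isIntegral

theorem finiteDimensional_pointField [Algebra.IsAlgebraic S K] (P : (W'⁄K).Point) :
    FiniteDimensional S (pointField (S := S) P) := by
  rcases P with _ | ⟨x, y, h⟩
  · exact finiteDimensional_bot S K
  · rw [pointField_some]
    have := finiteDimensional_adjoin_finset (S := S) ({x, y} : Finset K)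
    rwa [Finset.coe_insert, Finset.coe_singleton] at this

/-- Two automorphisms agreeing on the field of definition of `P` move `P` to the same point. -/
theorem smul_eq_smul_of_eqOn (P : (W'⁄K).Point) {φ σ : K ≃ₐ[S] K}
    (h : ∀ x ∈ pointField (S := S) P, φ x = σ x) : φ • P = σ • P := by
  rcases P with _ | ⟨x, y, hxy⟩
  · rfl
  · rw [algEquiv_smul_def, algEquiv_smul_def, map_some, map_some, Point.some.injEq]
    rw [pointField_some] at h
    exact ⟨h x (IntermediateField.subset_adjoin S _ (Set.mem_insert x {y})),
      h y (IntermediateField.subset_adjoin S _ (Set.mem_insert_of_mem x rfl))⟩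

/-- If `φ` and `σ` agree on the field of definition of `P` and `σ` fixes `P`, so does `φ`. -/
theorem smul_eq_self_of_eqOn (P : (W'⁄K).Point) {φ σ : K ≃ₐ[S] K}
    (h : ∀ x ∈ pointField (S := S) P, φ x = σ x) (hσ : σ • P = P) : φ • P = P :=
  (smul_eq_smul_of_eqOn P h).trans hσ

/-- The field generated by the coordinates of a finite set of points. -/
noncomputable def pointsField (s : Finset (W'⁄K).Point) : IntermediateField S K :=
  s.sup fun P => pointField (S := S) P

theorem pointField_le_pointsField {s : Finset (W'⁄K).Point} {P : (W'⁄K).Point} (hP : P ∈ s) :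
    pointField (S := S) P ≤ pointsField (S := S) s :=
  Finset.le_sup (f := fun P => pointField (S := S) P) hP

theorem finiteDimensional_pointsField [Algebra.IsAlgebraic S K] (s : Finset (W'⁄K).Point) :
    FiniteDimensional S (pointsField (S := S) s) := by
  classical
  induction s using Finset.induction_on with
  | empty =>
    rw [pointsField, Finset.sup_empty]
    exact finiteDimensional_bot S K
  | insert P s _ ih =>
    rw [pointsField, Finset.sup_insert]
    haveI := finiteDimensional_pointField (S := S) P
    haveI : FiniteDimensional S
        ↥(s.sup fun P => pointField (S := S) P : IntermediateField S K) := ih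
    exact IntermediateField.finiteDimensional_sup _ _

/-- **One finite extension for a finite set of points and a finite set of elements**: two
automorphisms agreeing on it move every point of `s` to the same point and agree on every element
of `u`. -/
theorem exists_field_points_elements [Algebra.IsAlgebraic S K] (s : Finset (W'⁄K).Point)
    (u : Finset K) :
    ∃ L₀ : IntermediateField S K, FiniteDimensional S L₀ ∧
      (∀ x ∈ u, x ∈ L₀) ∧
      ∀ φ σ : K ≃ₐ[S] K, (∀ x ∈ L₀, φ x = σ x) →
        (∀ P ∈ s, φ • P = σ • P) ∧ ∀ x ∈ u, φ x = σ x := by
  haveI := finiteDimensional_pointsField (S := S) s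
  haveI := finiteDimensional_adjoin_finset (S := S) u
  refine ⟨pointsField (S := S) s ⊔ IntermediateField.adjoin S (u : Set K),
    IntermediateField.finiteDimensional_sup _ _, ?_, ?_⟩
  · intro x hx
    exact (le_sup_right : IntermediateField.adjoin S (u : Set K) ≤ _)
      (IntermediateField.subset_adjoin S _ (Finset.mem_coe.mpr hx))
  · intro φ σ h
    refine ⟨fun P hP => smul_eq_smul_of_eqOn P fun x hx => h x ?_, fun x hx => h x ?_⟩
    · exact (le_sup_left : pointsField (S := S) s ≤ _) (pointField_le_pointsField hP hx)
    · exact (le_sup_right : IntermediateField.adjoin S (u : Set K) ≤ _)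
        (IntermediateField.subset_adjoin S _ (Finset.mem_coe.mpr hx))

/-! ### The case `ℚ̄ / ℚ` -/

section Rat

local notation "Qb" => AlgebraicClosure ℚ

/-- `ℚ̄ / ℚ` is algebraic, for any `ℚ`-algebra structure on `ℚ̄`. -/
theorem isAlgebraic_Qb [inst : Algebra ℚ Qb] : Algebra.IsAlgebraic ℚ Qb := by
  have h : inst = AlgebraicClosure.instAlgebra ℚ := Subsingleton.elim _ _
  subst h
  exact inferInstance

variable [DecidableEq Qb] {E : Affine ℚ}

theorem finiteDimensional_pointField_rat (P : (E⁄Qb).Point) :
    FiniteDimensional ℚ (pointField (S := ℚ) P) := by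
  haveI := isAlgebraic_Qb
  exact finiteDimensional_pointField P

theorem finiteDimensional_pointsField_rat (s : Finset (E⁄Qb).Point) :
    FiniteDimensional ℚ (pointsField (S := ℚ) s) := by
  haveI := isAlgebraic_Qb
  exact finiteDimensional_pointsField s

/-- **The input `L₀` of the approximation lemmas** for a finite set of points of `E(ℚ̄)` and a
finite set of elements of `ℚ̄` (roots of unity, …). -/
theorem exists_field_points_elements_rat (s : Finset (E⁄Qb).Point) (u : Finset Qb) :
    ∃ L₀ : IntermediateField ℚ Qb, FiniteDimensional ℚ L₀ ∧
      (∀ x ∈ u, x ∈ L₀) ∧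
      ∀ φ σ : Qb ≃ₐ[ℚ] Qb, (∀ x ∈ L₀, φ x = σ x) →
        (∀ P ∈ s, φ • P = σ • P) ∧ ∀ x ∈ u, φ x = σ x := by
  haveI := isAlgebraic_Qb
  exact exists_field_points_elements s u

/-- One point: a finite extension `L₀` on which agreement implies `φ • P = σ • P`. -/
theorem exists_field_point_rat (P : (E⁄Qb).Point) :
    ∃ L₀ : IntermediateField ℚ Qb, FiniteDimensional ℚ L₀ ∧
      ∀ φ σ : Qb ≃ₐ[ℚ] Qb, (∀ x ∈ L₀, φ x = σ x) → φ • P = σ • P :=
  ⟨pointField (S := ℚ) P, finiteDimensional_pointField_rat P,
    fun _ _ h => smul_eq_smul_of_eqOn P h⟩

end Rat

end Fermat.Agent.EC.Pseudo.PointField
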