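import Mathlib
import Fermat.Prelude.Def_FLTPrelim_Modularity
import Fermat.Prelude.Def_FLTPrelim_Ramification
import Fermat.Agent.EC.Pseudo.DetCyc
import Fermat.Agent.EC.Pseudo.PointField
import Fermat.Agent.EC.Tor.Main

/-!
# Program E (S58), node PS-3, cases (3a) + (3b): the trace is `2` on every inertia group at a prime
`q ≠ lam` — hence `v_q(M) = 2` is impossible

`W : WeierstrassCurve ℤ` semistable, `H : HeckePseudoChar lam M S ℤ_[lam] χ` with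
`χ (T_ℓ) = a_ℓ(W)` for `ℓ ∉ S`, `ℓ ∤ M`; `lam` an odd prime, `lam ∈ S`, the primes outside `S` are
good for `W`.

* `t_eq_two_of_forall_exists_fixed` : if `H.d s = 1` and, for every `k`, `s` fixes a point of
  `E(ℚ̄)` of exact order `lam ^ k`, then `H.t s = 2`. (Chebotarev approximation `(CH2')` of `s` by a
  Frobenius `φ` at a good `ℓ ≠ lam` which agrees with `s` on `ℚ(P_k)`; `φ` fixes `P_k`, hence
  `lam ^ k ∣ ℓ + 1 - a_ℓ` (`G-i`); `a_ℓ ≡ t(s)`, `ℓ ≡ d(s) = 1` mod `lam ^ k`; `ℤ_[lam]` is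
  separated.)
* `t_eq_two_of_mem_inertia_of_good` (3a): `q ≠ lam` good — the `lam ^ k`-torsion is unramified at
  `q` (`G-vi`) and `E(ℚ̄)` has points of every order `lam ^ k` (block TOR);
* `t_eq_two_of_mem_inertia_of_mult` (3b): `q ≠ lam` multiplicative — block MULT gives an
  inertia-fixed point of every order `lam ^ k`;
* `t_eq_two_of_mem_inertia` : both cases together for a semistable model.

The inputs of the blocks GOOD (`G-i`, `G-vi`) and MULT are hypotheses in the literal shapes of the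
contracts (`GoodDvd`, `GoodInertia`, `MultFixed`).
-/

set_option autoImplicit false

open IsLocalRing WeierstrassCurve WeierstrassCurve.Affine

namespace Fermat.Agent.EC.Pseudo.LevelTwo

open Fermat.Agent.Pseudo Fermat.Agent.EC.Pseudo.ChebApprox Fermat.Agent.EC.Pseudo.DetCyc
  Fermat.Agent.EC.Pseudo.PointField

local notation "Qb" => AlgebraicClosure ℚ
local notation "GQ" => (AlgebraicClosure ℚ ≃ₐ[ℚ] AlgebraicClosure ℚ)

variable [DecidableEq Qb]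

/-- `E(ℚ̄)` for a Weierstrass curve over `ℤ` -/
abbrev EPt (W : WeierstrassCurve ℤ) : Type :=
  ((W.map (Int.castRingHom ℚ)).toAffine⁄Qb).Point

/-- **(G-i)** of block GOOD, literal shape of `EC.Good.Main.dvd_of_fixed` -/
def GoodDvd (W : WeierstrassCurve ℤ) : Prop :=
  ∀ (l : ℕ), l.Prime → W.IsGoodPrimeFor l → ∀ A : ValuationSubring Qb, A.LiesOverPrime l →
    ∀ φ : GQ, A.IsFrobeniusAt φ l → ∀ m : ℕ, m.Coprime l → ∀ P : EPt W, addOrderOf P = m →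
      φ • P = P → (m : ℤ) ∣ (l : ℤ) + 1 - W.apOfModel l

/-- **(G-vi)** of block GOOD, literal shape of `EC.Good.Main.fix_of_inertia` -/
def GoodInertia (W : WeierstrassCurve ℤ) : Prop :=
  ∀ (l : ℕ), l.Prime → W.IsGoodPrimeFor l → ∀ A : ValuationSubring Qb, A.LiesOverPrime l →
    ∀ σ : GQ, σ ∈ A.inertiaSubgroupIn ℚ → ∀ m : ℕ, m.Coprime l → ∀ P : EPt W, m • P = 0 →
      σ • P = P

/-- the export of block MULT, literal shape of `EC.Mult.Main.exists_addOrderOf_eq_fixed` -/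
def MultFixed (W : WeierstrassCurve ℤ) : Prop :=
  ∀ (q : ℕ), q.Prime → (q : ℤ) ∣ W.Δ → ¬ (q : ℤ) ∣ W.c₄ → ∀ A : ValuationSubring Qb,
    A.LiesOverPrime q → ∀ m : ℕ, m ≠ 0 → ¬ q ∣ m →
      ∃ P : EPt W, addOrderOf P = m ∧ ∀ σ ∈ A.inertiaSubgroupIn ℚ, σ • P = P

omit [DecidableEq Qb] in
/-- the discriminant over `ℚ̄` of a Weierstrass curve over `ℤ` with `Δ ≠ 0` -/
theorem delta_map_ne_zero (W : WeierstrassCurve ℤ) (hΔ : W.Δ ≠ 0) :
    ((W.map (Int.castRingHom ℚ)).toAffine⁄Qb).Δ ≠ 0 := by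
  show ((W.map (Int.castRingHom ℚ)).map (algebraMap ℚ Qb)).Δ ≠ 0
  rw [WeierstrassCurve.map_Δ, WeierstrassCurve.map_Δ]
  simpa using hΔ

section Core

variable (W : WeierstrassCurve ℤ) {lam M : ℕ} [NeZero M] [hlam : Fact lam.Prime] {S : Finset ℕ}
  {χ : CuspForm.heckeAlgebra M 2 (↑S : Set ℕ) →+* ℤ_[lam]}
  (H : HeckePseudoChar lam M S ℤ_[lam] χ)

/-- **The core of (3a)/(3b)**: an element `s` with `d(s) = 1` which fixes a point of exact order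
`lam ^ k` for every `k` has trace `2`. -/
theorem t_eq_two_of_forall_exists_fixed (hlam2 : lam ≠ 2) (hlamS : lam ∈ S)
    (hgoodS : ∀ ℓ : ℕ, ℓ.Prime → ℓ ∉ (↑S : Set ℕ) → W.IsGoodPrimeFor ℓ)
    (hχ : ∀ (ℓ : ℕ) (hℓ : ℓ.Prime) (hℓM : ¬ ℓ ∣ M) (hℓS : ℓ ∉ (↑S : Set ℕ)),
      χ (CuspForm.heckeAlgebra.T hℓ hℓM hℓS) = ((W.apOfModel ℓ : ℤ) : ℤ_[lam]))
    (hG1 : GoodDvd W) {s : GQ} (hds : ((H.d s : ℤ_[lam]ˣ) : ℤ_[lam]) = 1)
    (hfix : ∀ k : ℕ, ∃ P : EPt W, addOrderOf P = lam ^ k ∧ s • P = P) :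
    H.t s = 2 := by
  have h : (1 + 1 : ℤ_[lam]) = H.t s := by
    refine eq_of_forall_sub_mem lam fun n => ?_
    obtain ⟨P, hP, hsP⟩ := hfix n
    obtain ⟨L₀, hL₀, hL₀eq⟩ :=
      exists_field_point_rat (E := (W.map (Int.castRingHom ℚ)).toAffine) P
    obtain ⟨ℓ, hℓ, hℓM, hℓS, -, A, φ, hA, hφ, hφs, -, -, ht, hd⟩ :=
      exists_frob_approx_hecke_det H (isUnit_two lam hlam2) n L₀ hL₀ s ∅
    have hℓlam : ℓ ≠ lam := fun h => hℓS (h ▸ Finset.mem_coe.mpr hlamS)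
    have hφP : φ • P = P := (hL₀eq φ s hφs).trans hsP
    have hcop : (lam ^ n).Coprime ℓ :=
      Nat.Coprime.pow_left n ((Nat.coprime_primes hlam.out hℓ).mpr hℓlam.symm)
    have hdvd := hG1 ℓ hℓ (hgoodS ℓ hℓ hℓS) A hA φ hφ (lam ^ n) hcop P hP hφP
    have h1 : (((ℓ : ℤ) + 1 - W.apOfModel ℓ : ℤ) : ℤ_[lam]) ∈ maximalIdeal ℤ_[lam] ^ n :=
      (intCast_mem_maximalIdeal_pow_iff lam _ n).mpr hdvd
    rw [hχ ℓ hℓ hℓM hℓS] at ht
    rw [hds] at hd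
    have e : (1 + 1 : ℤ_[lam]) - H.t s =
        (((ℓ : ℤ) + 1 - W.apOfModel ℓ : ℤ) : ℤ_[lam]) - ((ℓ : ℤ_[lam]) - 1) +
          (((W.apOfModel ℓ : ℤ) : ℤ_[lam]) - H.t s) := by
      push_cast
      ring
    rw [e]
    exact Ideal.add_mem _ (Ideal.sub_mem _ h1 hd) ht
  rw [← h]
  norm_num

variable (hlam2 : lam ≠ 2) (hlamS : lam ∈ S)
  (hgoodS : ∀ ℓ : ℕ, ℓ.Prime → ℓ ∉ (↑S : Set ℕ) → W.IsGoodPrimeFor ℓ)
  (hχ : ∀ (ℓ : ℕ) (hℓ : ℓ.Prime) (hℓM : ¬ ℓ ∣ M) (hℓS : ℓ ∉ (↑S : Set ℕ)),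
    χ (CuspForm.heckeAlgebra.T hℓ hℓM hℓS) = ((W.apOfModel ℓ : ℤ) : ℤ_[lam]))
  (hG1 : GoodDvd W)

include hlam2 hlamS hgoodS hχ hG1

/-- **(3a)** the trace is `2` on the inertia groups at a GOOD prime `q ≠ lam`. -/
theorem t_eq_two_of_mem_inertia_of_good (hΔ : W.Δ ≠ 0) (hG6 : GoodInertia W) {q : ℕ}
    (hq : q.Prime) (hqlam : q ≠ lam) (hgoodq : W.IsGoodPrimeFor q) (B : ValuationSubring Qb)
    (hB : B.LiesOverPrime q) {s : GQ} (hs : s ∈ B.inertiaSubgroupIn ℚ) : H.t s = 2 := by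
  refine t_eq_two_of_forall_exists_fixed W H hlam2 hlamS hgoodS hχ hG1
    (d_eq_one_of_mem_inertia H hlam2 hlamS hq hqlam B hB hs) fun k => ?_
  have hlamQb : ((lam : ℕ) : Qb) ≠ 0 := Nat.cast_ne_zero.mpr hlam.out.ne_zero
  obtain ⟨P, hP⟩ := Fermat.Agent.EC.Tor.Main.exists_addOrderOf_eq_prime_pow
    ((W.map (Int.castRingHom ℚ)).toAffine⁄Qb) (delta_map_ne_zero W hΔ) hlam.out hlamQb k
  refine ⟨P, hP, ?_⟩
  have hcop : (lam ^ k).Coprime q :=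
    Nat.Coprime.pow_left k ((Nat.coprime_primes hlam.out hq).mpr hqlam.symm)
  exact hG6 q hq hgoodq B hB s hs (lam ^ k) hcop P (by rw [← hP]; exact addOrderOf_nsmul_eq_zero P)

/-- **(3b)** the trace is `2` on the inertia groups at a MULTIPLICATIVE prime `q ≠ lam`. -/
theorem t_eq_two_of_mem_inertia_of_mult (hMu : MultFixed W) {q : ℕ}
    (hq : q.Prime) (hqlam : q ≠ lam) (hqΔ : (q : ℤ) ∣ W.Δ) (hqc₄ : ¬ (q : ℤ) ∣ W.c₄)
    (B : ValuationSubring Qb) (hB : B.LiesOverPrime q) {s : GQ}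
    (hs : s ∈ B.inertiaSubgroupIn ℚ) : H.t s = 2 := by
  refine t_eq_two_of_forall_exists_fixed W H hlam2 hlamS hgoodS hχ hG1
    (d_eq_one_of_mem_inertia H hlam2 hlamS hq hqlam B hB hs) fun k => ?_
  have hqk : ¬ q ∣ lam ^ k := fun h =>
    hqlam ((Nat.prime_dvd_prime_iff_eq hq hlam.out).mp (hq.dvd_of_dvd_pow h))
  obtain ⟨P, hP, hfix⟩ := hMu q hq hqΔ hqc₄ B hB (lam ^ k) (pow_ne_zero k hlam.out.ne_zero) hqk
  exact ⟨P, hP, hfix s hs⟩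

/-- **(3a) + (3b)**: for a semistable model the trace is `2` on EVERY inertia group at a prime
`q ≠ lam`. -/
theorem t_eq_two_of_mem_inertia (hss : W.IsSemistableModel) (hΔ : W.Δ ≠ 0) (hG6 : GoodInertia W)
    (hMu : MultFixed W) {q : ℕ} (hq : q.Prime) (hqlam : q ≠ lam) (B : ValuationSubring Qb)
    (hB : B.LiesOverPrime q) {s : GQ} (hs : s ∈ B.inertiaSubgroupIn ℚ) : H.t s = 2 := by
  by_cases hqΔ : (q : ℤ) ∣ W.Δ
  · exact t_eq_two_of_mem_inertia_of_mult W H hlam2 hlamS hgoodS hχ hG1 hMu hq hqlam hqΔ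
      (hss q hq hqΔ) B hB hs
  · exact t_eq_two_of_mem_inertia_of_good W H hlam2 hlamS hgoodS hχ hG1 hΔ hG6 hq hqlam hqΔ B hB hs

end Core

end Fermat.Agent.EC.Pseudo.LevelTwo
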