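import Mathlib
import Fermat.Agent.EC.Final.Contracts
import Fermat.Agent.EC.Pseudo.LevelTwo
import Fermat.Agent.EC.Pseudo.LevelArith
import Fermat.Agent.EC.Pseudo.LevelSet

/-!
# Program E (S58), node PS-3: the glue `Contracts.LevelOut` from the three local cases

`levelOut_of_inputs` : `Contracts.LevelOut` from
* `hG1 : ∀ W, GoodDvd W`, `hG6 : ∀ W, GoodInertia W` (block GOOD, `G-i`, `G-vi`),
* `hMu : ∀ W, W.Δ ≠ 0 → MultFixed W` (block MULT),
* `hOne : LevelOneOut` (case (3c): a prime `q ≠ lam` GOOD for `W` at which the squares of the traces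
  of Frobenius are `(q + 1) ^ 2` does not exist),

by `LevelArith.dvd_conductorLevel_of_local`: no prime `q` has `v_q(M) = 2` (`LevelTwo`: the trace is
`2` on every inertia group at `q ≠ lam`, against `(2i)` of the bundle `LevelSet.exists_traceBundle`)
and the primes with `v_q(M) = 1` divide `Δ` (`hOne` + `(2ii)` of the bundle). The auxiliary prime is
`lam := 3` for `q ≠ 3` and `lam := 5` for `q = 3`.
-/

set_option autoImplicit false

open CuspForm ModularFormClass WeierstrassCurve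

namespace Fermat.Agent.EC.Pseudo.LevelGlue

open Fermat.Agent.Pseudo Fermat.Agent.EC.Pseudo.LevelTwo Fermat.Agent.EC.Pseudo.LevelSet
  Fermat.Agent.EC.Pseudo.LevelArith Fermat.Agent.EC.Final

local notation "Qb" => AlgebraicClosure ℚ
local notation "GQ" => (AlgebraicClosure ℚ ≃ₐ[ℚ] AlgebraicClosure ℚ)

/-- **Case (3c) of PS-3** (the shape consumed by the glue): for `W` with `Δ ≠ 0` and a Hecke
pseudo-character `H` over `ℤ_[lam]` whose values at `T_ℓ` (`ℓ ∉ S`, `ℓ ∤ M`) are the `a_ℓ(W)`, there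
is no prime `q ≠ lam`, GOOD for `W`, such that `H.t σ ^ 2 = (q + 1) ^ 2` for all Frobenius elements
at `q`. -/
def LevelOneOut : Prop :=
  ∀ (W : WeierstrassCurve ℤ), W.Δ ≠ 0 → ∀ (lam M : ℕ) [NeZero M] [Fact lam.Prime] (S : Finset ℕ)
    (χ : heckeAlgebra M 2 (↑S : Set ℕ) →+* ℤ_[lam]) (H : HeckePseudoChar lam M S ℤ_[lam] χ),
    lam ≠ 2 → lam ∈ S → (∀ ℓ : ℕ, ℓ.Prime → ℓ ∉ (↑S : Set ℕ) → W.IsGoodPrimeFor ℓ) →
    (∀ (ℓ : ℕ) (hℓ : ℓ.Prime) (hℓM : ¬ ℓ ∣ M) (hℓS : ℓ ∉ (↑S : Set ℕ)),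
      χ (heckeAlgebra.T hℓ hℓM hℓS) = ((W.apOfModel ℓ : ℤ) : ℤ_[lam])) →
    ∀ q : ℕ, q.Prime → q ≠ lam → W.IsGoodPrimeFor q →
      (∀ B : ValuationSubring Qb, B.LiesOverPrime q → ∀ σ : GQ, B.IsFrobeniusAt σ q →
        H.t σ ^ 2 = ((q : ℤ_[lam]) + 1) ^ 2) → False

/-- an odd auxiliary prime different from `q` -/
theorem exists_aux_prime (q : ℕ) : ∃ lam : ℕ, lam.Prime ∧ lam ≠ 2 ∧ q ≠ lam := by
  by_cases h : q = 3
  · exact ⟨5, by norm_num, by norm_num, by omega⟩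
  · exact ⟨3, by norm_num, by norm_num, h⟩

variable [DecidableEq Qb]

/-- **PS-3: `Contracts.LevelOut` from the inputs of the blocks GOOD and MULT and the case (3c).** -/
theorem levelOut_of_inputs (hG1 : ∀ W : WeierstrassCurve ℤ, GoodDvd W)
    (hG6 : ∀ W : WeierstrassCurve ℤ, GoodInertia W)
    (hMu : ∀ W : WeierstrassCurve ℤ, W.Δ ≠ 0 → MultFixed W) (hOne : LevelOneOut) :
    Contracts.LevelOut := by
  intro W hss hΔ N hN hbad hN3 M hMN g hg ha
  have : NeZero M := ⟨fun h => hN (by rw [h] at hMN; exact Nat.eq_zero_of_zero_dvd hMN)⟩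
  refine dvd_conductorLevel_of_local W hΔ hN hN3 hMN ?_ ?_
  · -- no prime with `v_q(M) = 2`
    intro q hq hfac
    obtain ⟨lam, hlamP, hlam2, hqlam⟩ := exists_aux_prime q
    have : Fact lam.Prime := ⟨hlamP⟩
    obtain ⟨hlamS, -, χ, H, hχ, h2i, -⟩ :=
      exists_traceBundle_levelSet W hN hMN hbad hg ha lam hlam2
    obtain ⟨B, hB, s, hs, hts⟩ := h2i q hq hqlam hfac
    have hgoodS : ∀ ℓ : ℕ, ℓ.Prime → ℓ ∉ (↑(levelSet N lam) : Set ℕ) → W.IsGoodPrimeFor ℓ :=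
      fun ℓ hℓ h => isGoodPrimeFor_of_not_mem_levelSet W hN hbad hℓ
        (fun hmem => h (Finset.mem_coe.mpr hmem))
    exact hts (t_eq_two_of_mem_inertia W H hlam2 hlamS hgoodS hχ (hG1 W) hss hΔ (hG6 W)
      (hMu W hΔ) hq hqlam B hB hs)
  · -- the primes with `v_q(M) = 1` divide `Δ`
    intro q hq hfac
    by_contra hgoodq
    obtain ⟨lam, hlamP, hlam2, hqlam⟩ := exists_aux_prime q
    have : Fact lam.Prime := ⟨hlamP⟩
    obtain ⟨hlamS, -, χ, H, hχ, -, h2ii⟩ :=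
      exists_traceBundle_levelSet W hN hMN hbad hg ha lam hlam2
    have hgoodS : ∀ ℓ : ℕ, ℓ.Prime → ℓ ∉ (↑(levelSet N lam) : Set ℕ) → W.IsGoodPrimeFor ℓ :=
      fun ℓ hℓ h => isGoodPrimeFor_of_not_mem_levelSet W hN hbad hℓ
        (fun hmem => h (Finset.mem_coe.mpr hmem))
    have hM0 : M ≠ 0 := NeZero.ne M
    have hqM : q ∣ M := (hq.dvd_iff_one_le_factorization hM0).mpr (le_of_eq hfac.symm)
    have hq2M : ¬ q ^ 2 ∣ M := fun h => by
      have := (hq.pow_dvd_iff_le_factorization hM0).mp h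
      omega
    exact hOne W hΔ lam M (levelSet N lam) χ H hlam2 hlamS hgoodS hχ q hq hqlam hgoodq
      (h2ii q hq hqlam hqM hq2M)

end Fermat.Agent.EC.Pseudo.LevelGlue
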