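import Mathlib
import Fermat.Agent.EC.Pseudo.PointField
import Fermat.Agent.EC.Tor.Main

/-!
# Program E (S58), block PSEUDO, node PS-3: the field of the `n`-torsion of `E(ℚ̄)`

On top of helper5's `EC/Pseudo/PointField.lean` (fields of definition of finite sets of points)
and helper7's `EC/Tor/Main.lean` (`finite_torsion`): for `W : WeierstrassCurve ℤ`, `Δ ≠ 0`,
`n ≠ 0`,

* `finite_torsion_rat` : the `n`-torsion of `E(ℚ̄)` is finite; `torsionFinset W hΔ hn` : it as a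
  `Finset`, `mem_torsionFinset`;
* **`exists_field_torsion_rat`** : a number field `L₀` such that two elements of `G_ℚ` agreeing on
  `L₀` agree at every `P` with `n • P = 0` (the input `L₀` of the approximation lemmas of
  `EC/Pseudo/ChebApprox.lean` in the case (3c) of the level argument);
  `exists_field_torsion_rat_of_addOrderOf` : the same for the points of exact order `n`.
-/

set_option autoImplicit false
set_option linter.unusedSectionVars false
set_option linter.style.haveILetI false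

noncomputable section

namespace Fermat.Agent.EC.Pseudo.TorsionField

open WeierstrassCurve WeierstrassCurve.Affine WeierstrassCurve.Affine.Point
open Fermat.Agent.EC.Pseudo.PointField

local notation "Qb" => AlgebraicClosure ℚ

variable [DecidableEq Qb]

/-- the discriminant over `ℚ̄` of a Weierstrass curve over `ℤ` with `Δ ≠ 0` -/
theorem delta_baseChange_ne_zero (W : WeierstrassCurve ℤ) (hΔ : W.Δ ≠ 0) :
    ((W.map (Int.castRingHom ℚ)).toAffine⁄Qb).Δ ≠ 0 := by
  show ((W.map (Int.castRingHom ℚ)).map (algebraMap ℚ Qb)).Δ ≠ 0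
  rw [WeierstrassCurve.map_Δ, WeierstrassCurve.map_Δ]
  simpa using hΔ

/-- the `n`-torsion of `E(ℚ̄)` is finite (helper7's `Tor.Main.finite_torsion`) -/
theorem finite_torsion_rat (W : WeierstrassCurve ℤ) (hΔ : W.Δ ≠ 0) {n : ℕ} (hn : n ≠ 0) :
    Finite (Submodule.torsionBy ℤ ((W.map (Int.castRingHom ℚ)).toAffine⁄Qb).Point (n : ℤ)) :=
  Fermat.Agent.EC.Tor.Main.finite_torsion _ (delta_baseChange_ne_zero W hΔ)
    (Nat.cast_ne_zero.mpr hn)

/-- the set of the `n`-torsion points of `E(ℚ̄)` is finite -/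
theorem finite_setOf_nsmul_eq_zero (W : WeierstrassCurve ℤ) (hΔ : W.Δ ≠ 0) {n : ℕ} (hn : n ≠ 0) :
    {P : ((W.map (Int.castRingHom ℚ)).toAffine⁄Qb).Point | n • P = 0}.Finite := by
  haveI := finite_torsion_rat W hΔ hn
  have h : {P : ((W.map (Int.castRingHom ℚ)).toAffine⁄Qb).Point | n • P = 0} =
      Set.range (fun T : Submodule.torsionBy ℤ
        ((W.map (Int.castRingHom ℚ)).toAffine⁄Qb).Point (n : ℤ) =>
          (T : ((W.map (Int.castRingHom ℚ)).toAffine⁄Qb).Point)) := by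
    ext P
    constructor
    · intro hP
      refine ⟨⟨P, ?_⟩, rfl⟩
      rw [Submodule.mem_torsionBy_iff, natCast_zsmul]
      exact hP
    · rintro ⟨T, rfl⟩
      have hT := T.2
      rw [Submodule.mem_torsionBy_iff, natCast_zsmul] at hT
      exact hT
  rw [h]
  exact Set.finite_range _

/-- the `n`-torsion of `E(ℚ̄)` as a `Finset` -/
def torsionFinset (W : WeierstrassCurve ℤ) (hΔ : W.Δ ≠ 0) {n : ℕ} (hn : n ≠ 0) :
    Finset ((W.map (Int.castRingHom ℚ)).toAffine⁄Qb).Point :=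
  (finite_setOf_nsmul_eq_zero W hΔ hn).toFinset

theorem mem_torsionFinset (W : WeierstrassCurve ℤ) (hΔ : W.Δ ≠ 0) {n : ℕ} (hn : n ≠ 0)
    (P : ((W.map (Int.castRingHom ℚ)).toAffine⁄Qb).Point) :
    P ∈ torsionFinset W hΔ hn ↔ n • P = 0 := by
  rw [torsionFinset, Set.Finite.mem_toFinset]
  rfl

/-- **The field of the `n`-torsion**: a number field `L₀` such that two elements of `G_ℚ` which
agree on `L₀` agree at every point of `E(ℚ̄)[n]`. -/
theorem exists_field_torsion_rat (W : WeierstrassCurve ℤ) (hΔ : W.Δ ≠ 0) {n : ℕ} (hn : n ≠ 0) :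
    ∃ L₀ : IntermediateField ℚ Qb, FiniteDimensional ℚ L₀ ∧
      ∀ φ σ : Qb ≃ₐ[ℚ] Qb, (∀ x ∈ L₀, φ x = σ x) →
        ∀ P : ((W.map (Int.castRingHom ℚ)).toAffine⁄Qb).Point, n • P = 0 → φ • P = σ • P := by
  obtain ⟨L₀, hL₀, -, h⟩ := exists_field_points_elements_rat (torsionFinset W hΔ hn) ∅
  exact ⟨L₀, hL₀, fun φ σ hφσ P hP =>
    (h φ σ hφσ).1 P ((mem_torsionFinset W hΔ hn P).mpr hP)⟩

/-- the same for the points of exact order `n` -/
theorem exists_field_torsion_rat_of_addOrderOf (W : WeierstrassCurve ℤ) (hΔ : W.Δ ≠ 0) {n : ℕ}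
    (hn : n ≠ 0) :
    ∃ L₀ : IntermediateField ℚ Qb, FiniteDimensional ℚ L₀ ∧
      ∀ φ σ : Qb ≃ₐ[ℚ] Qb, (∀ x ∈ L₀, φ x = σ x) →
        ∀ P : ((W.map (Int.castRingHom ℚ)).toAffine⁄Qb).Point, addOrderOf P = n →
          φ • P = σ • P := by
  obtain ⟨L₀, hL₀, h⟩ := exists_field_torsion_rat W hΔ hn
  exact ⟨L₀, hL₀, fun φ σ hφσ P hP =>
    h φ σ hφσ P (by rw [← hP]; exact addOrderOf_nsmul_eq_zero P)⟩

/-- a Frobenius-type consequence: if `φ` and `τ` agree on `L₀` and `φ` fixes a point of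
`E(ℚ̄)[n]`, so does `τ` -/
theorem smul_eq_self_of_eqOn_torsion (W : WeierstrassCurve ℤ) {n : ℕ}
    {L₀ : IntermediateField ℚ Qb}
    (h : ∀ φ σ : Qb ≃ₐ[ℚ] Qb, (∀ x ∈ L₀, φ x = σ x) →
      ∀ P : ((W.map (Int.castRingHom ℚ)).toAffine⁄Qb).Point, n • P = 0 → φ • P = σ • P)
    {φ τ : Qb ≃ₐ[ℚ] Qb} (hφτ : ∀ x ∈ L₀, φ x = τ x)
    {P : ((W.map (Int.castRingHom ℚ)).toAffine⁄Qb).Point} (hP : n • P = 0) (hφ : φ • P = P) :
    τ • P = P :=
  (h φ τ hφτ P hP).symm.trans hφ

end Fermat.Agent.EC.Pseudo.TorsionField
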