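import Mathlib
import Fermat.Prelude.Def_FLTPrelim_Modularity
import Fermat.Agent.S54.FrobExists
import Fermat.Agent.EC.Pseudo.DetCyc
import Fermat.Agent.EC.Pseudo.TorsionField

/-!
# Program E (S58), node PS-3, case (3c): a GOOD prime `q ≠ lam` does not divide the level exactly
once

`W : WeierstrassCurve ℤ`, `Δ ≠ 0`; `H : HeckePseudoChar lam M S ℤ_[lam] χ` with
`χ (T_ℓ) = a_ℓ(W)` for `ℓ ∉ S`, `ℓ ∤ M`; `lam` an odd prime, `lam ∈ S`, the primes outside `S` are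
good for `W`. If `q ∥ M`, the shape of the local component of the newform at `q` gives
`t(σ)² = (q + 1)²` for the Frobenius elements `σ` at `q` (`(2ii)`); this is impossible when `q` is
a prime of GOOD reduction of `W`:

* `false_of_good_of_trace_sq` : `q ≠ lam` good, ONE Frobenius `σ` at `q` with
  `H.t σ ^ 2 = (q + 1) ^ 2` ⇒ `False`.

Proof. `τ := σ²` has `t(τ) = t(σ)² - 2 q = q² + 1`, `d(τ) = q²` (`DetCyc.t_sq`,
`DetCyc.d_frobenius`). Take `m` with `lam ^ m > 2 q² + 1` and the field `L₀` of `E(ℚ̄)[lam ^ m]`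
(`TorsionField.exists_field_torsion_rat`). Chebotarev approximation `(CH2')` gives a Frobenius `φ`
at a good prime `ℓ ≠ lam` agreeing with `τ` on `L₀`, with `a_ℓ ≡ t(τ)`, `ℓ ≡ d(τ)` modulo
`lam ^ (2 m)`, so `lam ^ (2 m) ∣ ℓ + 1 - a_ℓ`. By `(G-ii)` `φ` fixes a point `P` of exact order
`lam ^ m`; then `τ = σ²` fixes `P`, and `(G-iii)` at `q` gives `lam ^ m ≤ 2 q² + 1`.

The inputs `(G-ii)`, `(G-iii)` of the block GOOD are hypotheses in the literal shapes of the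
contract (`GoodExists`, `GoodBound`).
-/

set_option autoImplicit false

open IsLocalRing WeierstrassCurve WeierstrassCurve.Affine

namespace Fermat.Agent.EC.Pseudo.LevelOne

open Fermat.Agent.Pseudo Fermat.Agent.EC.Pseudo.ChebApprox Fermat.Agent.EC.Pseudo.DetCyc
  Fermat.Agent.EC.Pseudo.TorsionField

local notation "Qb" => AlgebraicClosure ℚ
local notation "GQ" => (AlgebraicClosure ℚ ≃ₐ[ℚ] AlgebraicClosure ℚ)

variable [DecidableEq Qb]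

/-- **(G-ii)** of block GOOD, literal shape of `EC.Good.Main.exists_fixed_of_dvd` -/
def GoodExists (W : WeierstrassCurve ℤ) : Prop :=
  ∀ (l : ℕ), l.Prime → W.IsGoodPrimeFor l → ∀ A : ValuationSubring Qb, A.LiesOverPrime l →
    ∀ φ : GQ, A.IsFrobeniusAt φ l → ∀ lam : ℕ, lam.Prime → lam ≠ l → ∀ n : ℕ,
      ((lam ^ n : ℕ) : ℤ) ∣ (l : ℤ) + 1 - W.apOfModel l →
        ∃ P : ((W.map (Int.castRingHom ℚ)).toAffine⁄Qb).Point,
          addOrderOf P = lam ^ ((n + 1) / 2) ∧ φ • P = P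

/-- **(G-iii)** of block GOOD, literal shape of `EC.Good.Main.le_of_frob_sq_fixed` -/
def GoodBound (W : WeierstrassCurve ℤ) : Prop :=
  ∀ (l : ℕ), l.Prime → W.IsGoodPrimeFor l → ∀ A : ValuationSubring Qb, A.LiesOverPrime l →
    ∀ φ : GQ, A.IsFrobeniusAt φ l → ∀ m : ℕ, m.Coprime l →
      ∀ P : ((W.map (Int.castRingHom ℚ)).toAffine⁄Qb).Point, addOrderOf P = m →
        φ • φ • P = P → m ≤ 2 * l ^ 2 + 1

section Core

variable (W : WeierstrassCurve ℤ) {lam M : ℕ} [NeZero M] [hlam : Fact lam.Prime] {S : Finset ℕ}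
  {χ : CuspForm.heckeAlgebra M 2 (↑S : Set ℕ) →+* ℤ_[lam]}
  (H : HeckePseudoChar lam M S ℤ_[lam] χ)

omit [DecidableEq Qb] in
/-- the trace and the determinant of the square of a Frobenius element `σ` at `q ≠ lam` with
`t(σ)² = (q + 1)²` -/
theorem t_d_sq_frobenius (hlam2 : lam ≠ 2) (hlamS : lam ∈ S) {q : ℕ} (hq : q.Prime)
    (hqlam : q ≠ lam) (B : ValuationSubring Qb) (hB : B.LiesOverPrime q) {σ : GQ}
    (hσ : B.IsFrobeniusAt σ q) (ht : H.t σ ^ 2 = ((q : ℤ_[lam]) + 1) ^ 2) :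
    H.t (σ * σ) = (((q : ℤ) ^ 2 + 1 : ℤ) : ℤ_[lam]) ∧
      ((H.d (σ * σ) : ℤ_[lam]ˣ) : ℤ_[lam]) = (((q : ℤ) ^ 2 : ℤ) : ℤ_[lam]) := by
  have hd := d_frobenius H hlam2 hlamS hq hqlam B hB hσ
  constructor
  · rw [t_sq, hd, ht]
    push_cast
    ring
  · rw [map_mul, Units.val_mul, hd]
    push_cast
    ring

/-- **(3c)** a GOOD prime `q ≠ lam` has no Frobenius element `σ` with `t(σ)² = (q + 1)²`. -/
theorem false_of_good_of_trace_sq (hΔ : W.Δ ≠ 0) (hlam2 : lam ≠ 2) (hlamS : lam ∈ S)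
    (hgoodS : ∀ ℓ : ℕ, ℓ.Prime → ℓ ∉ (↑S : Set ℕ) → W.IsGoodPrimeFor ℓ)
    (hχ : ∀ (ℓ : ℕ) (hℓ : ℓ.Prime) (hℓM : ¬ ℓ ∣ M) (hℓS : ℓ ∉ (↑S : Set ℕ)),
      χ (CuspForm.heckeAlgebra.T hℓ hℓM hℓS) = ((W.apOfModel ℓ : ℤ) : ℤ_[lam]))
    (hG2 : GoodExists W) (hG3 : GoodBound W) {q : ℕ} (hq : q.Prime) (hqlam : q ≠ lam)
    (hgoodq : W.IsGoodPrimeFor q) (B : ValuationSubring Qb) (hB : B.LiesOverPrime q) {σ : GQ}
    (hσ : B.IsFrobeniusAt σ q) (ht : H.t σ ^ 2 = ((q : ℤ_[lam]) + 1) ^ 2) : False := by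
  obtain ⟨htτ, hdτ⟩ := t_d_sq_frobenius H hlam2 hlamS hq hqlam B hB hσ ht
  -- the exponent `m`
  obtain ⟨m, hm⟩ : ∃ m : ℕ, 2 * q ^ 2 + 1 < lam ^ m :=
    ⟨2 * q ^ 2 + 1, Nat.lt_pow_self hlam.out.one_lt⟩
  have hlamm : lam ^ m ≠ 0 := pow_ne_zero m hlam.out.ne_zero
  -- the field of the `lam ^ m`-torsion
  obtain ⟨L₀, hL₀, hL⟩ := exists_field_torsion_rat W hΔ hlamm
  -- Chebotarev approximation of `τ = σ * σ`
  obtain ⟨ℓ, hℓ, hℓM, hℓS, -, A, φ, hA, hφ, hφτ, -, -, ht', hd'⟩ :=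
    exists_frob_approx_hecke_det H (isUnit_two lam hlam2) (2 * m) L₀ hL₀ (σ * σ) ∅
  have hℓlam : ℓ ≠ lam := fun h => hℓS (h ▸ Finset.mem_coe.mpr hlamS)
  rw [hχ ℓ hℓ hℓM hℓS, htτ] at ht'
  rw [hdτ] at hd'
  -- `lam ^ (2 m) ∣ ℓ + 1 - a_ℓ`
  have hmem : (((ℓ : ℤ) + 1 - W.apOfModel ℓ : ℤ) : ℤ_[lam]) ∈ maximalIdeal ℤ_[lam] ^ (2 * m) := by
    have e : (((ℓ : ℤ) + 1 - W.apOfModel ℓ : ℤ) : ℤ_[lam]) =
        ((ℓ : ℤ_[lam]) - (((q : ℤ) ^ 2 : ℤ) : ℤ_[lam])) -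
          (((W.apOfModel ℓ : ℤ) : ℤ_[lam]) - (((q : ℤ) ^ 2 + 1 : ℤ) : ℤ_[lam])) := by
      push_cast
      ring
    rw [e]
    exact Ideal.sub_mem _ hd' ht'
  have hdvd : ((lam ^ (2 * m) : ℕ) : ℤ) ∣ (ℓ : ℤ) + 1 - W.apOfModel ℓ :=
    (intCast_mem_maximalIdeal_pow_iff lam _ (2 * m)).mp hmem
  -- a point of exact order `lam ^ m` fixed by `φ`
  obtain ⟨P, hP, hφP⟩ := hG2 ℓ hℓ (hgoodS ℓ hℓ hℓS) A hA φ hφ lam hlam.out hℓlam.symm (2 * m) hdvd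
  have hexp : (2 * m + 1) / 2 = m := by omega
  rw [hexp] at hP
  have hP0 : lam ^ m • P = 0 := by rw [← hP]; exact addOrderOf_nsmul_eq_zero P
  -- `σ * σ` fixes it
  have hτP : (σ * σ) • P = P := smul_eq_self_of_eqOn_torsion W hL hφτ hP0 hφP
  rw [mul_smul] at hτP
  -- the bound at `q`
  have hcop : (lam ^ m).Coprime q :=
    Nat.Coprime.pow_left m ((Nat.coprime_primes hlam.out hq).mpr hqlam.symm)
  exact absurd (hG3 q hq hgoodq B hB σ hσ (lam ^ m) hcop P hP hτP) (not_le.mpr hm)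

/-- the same with `(2ii)` in the form "for every Frobenius element at `q`" -/
theorem false_of_good_of_forall_trace_sq (hΔ : W.Δ ≠ 0) (hlam2 : lam ≠ 2) (hlamS : lam ∈ S)
    (hgoodS : ∀ ℓ : ℕ, ℓ.Prime → ℓ ∉ (↑S : Set ℕ) → W.IsGoodPrimeFor ℓ)
    (hχ : ∀ (ℓ : ℕ) (hℓ : ℓ.Prime) (hℓM : ¬ ℓ ∣ M) (hℓS : ℓ ∉ (↑S : Set ℕ)),
      χ (CuspForm.heckeAlgebra.T hℓ hℓM hℓS) = ((W.apOfModel ℓ : ℤ) : ℤ_[lam]))
    (hG2 : GoodExists W) (hG3 : GoodBound W) {q : ℕ} (hq : q.Prime) (hqlam : q ≠ lam)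
    (hgoodq : W.IsGoodPrimeFor q)
    (h2ii : ∀ B : ValuationSubring Qb, B.LiesOverPrime q → ∀ σ : GQ, B.IsFrobeniusAt σ q →
      H.t σ ^ 2 = ((q : ℤ_[lam]) + 1) ^ 2) : False := by
  obtain ⟨B, hB, σ, hσ⟩ := Fermat.Agent.S54.FrobExists.exists_isFrobeniusAt q hq
  exact false_of_good_of_trace_sq W H hΔ hlam2 hlamS hgoodS hχ hG2 hG3 hq hqlam hgoodq B hB hσ
    (h2ii B hB σ hσ)

end Core

end Fermat.Agent.EC.Pseudo.LevelOne
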