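import Fermat.Agent.EC.Pseudo.LevelSet
import Fermat.Agent.EC.Pseudo.LevelTwo
import Fermat.Agent.EC.Pseudo.LevelOne
import Fermat.Agent.EC.Pseudo.LevelArith
import Fermat.Agent.EC.Good.Main
import Fermat.Agent.EC.Mult.Main
import Fermat.Agent.EC.Final.Contracts

/-!
# Program E (S58), node PS-3: `levelOut : Contracts.LevelOut`, hypothesis-free

The level `M` of the newform attached to a semistable modular model `W` of cube-free level `N`
divides `W.conductorLevel = rad |Δ|`.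

* `goodDvd`, `goodInertia`, `goodExists`, `goodBound`, `multFixed` : the exports of the blocks GOOD
  (`EC.Good.Main`: `G-i`, `G-vi`, `G-ii`, `G-iii`) and MULT (`EC.Mult.Main`) inhabit the hypothesis
  shapes of `LevelTwo` / `LevelOne`;
* `local_at` : at one odd auxiliary prime `lam`, for every prime `q ≠ lam`: `v_q(M) ≠ 2`
  (`LevelTwo.t_eq_two_of_mem_inertia` against `(2i)` of the bundle
  `LevelSet.exists_traceBundle_levelSet`) and `v_q(M) = 1 → q ∣ Δ`
  (`LevelOne.false_of_good_of_forall_trace_sq` against `(2ii)`);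
* `levelOut` : `lam := 3` for `q ≠ 3`, `lam := 5` for `q = 3`, then
  `LevelArith.dvd_conductorLevel_of_local`.
-/

set_option autoImplicit false

open CuspForm ModularFormClass CongruenceSubgroup WeierstrassCurve Fermat.Agent.Pseudo

namespace Fermat.Agent.EC.Pseudo.LevelOutGlue

open Fermat.Agent.EC.Pseudo.LevelSet

local notation "Qb" => AlgebraicClosure ℚ
local notation "GQ" => (AlgebraicClosure ℚ ≃ₐ[ℚ] AlgebraicClosure ℚ)

section Inputs

variable [DecidableEq Qb] (W : WeierstrassCurve ℤ)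

/-- `G-i` of block GOOD inhabits `LevelTwo.GoodDvd` -/
theorem goodDvd : LevelTwo.GoodDvd W :=
  fun _ hl hg A hA φ hφ _ hm _ hP hfix =>
    Fermat.Agent.EC.Good.Main.dvd_of_fixed W hl hg A hA φ hφ hm hP hfix

/-- `G-vi` of block GOOD inhabits `LevelTwo.GoodInertia` -/
theorem goodInertia : LevelTwo.GoodInertia W :=
  fun _ hl hg A hA _ hσ _ hm _ hP =>
    Fermat.Agent.EC.Good.Main.fix_of_inertia W hl hg A hA hσ hm hP

/-- the export of block MULT inhabits `LevelTwo.MultFixed` -/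
theorem multFixed (hΔ : W.Δ ≠ 0) : LevelTwo.MultFixed W :=
  fun _ hq hqΔ hc₄ A hA _ hm hqm =>
    Fermat.Agent.EC.Mult.Main.exists_addOrderOf_eq_fixed W hΔ hq hqΔ hc₄ A hA hm hqm

/-- `G-ii` of block GOOD inhabits `LevelOne.GoodExists` -/
theorem goodExists : LevelOne.GoodExists W :=
  fun _ hl hg A hA φ hφ _ hlam hne n hdvd =>
    Fermat.Agent.EC.Good.Main.exists_fixed_of_dvd W hl hg A hA φ hφ hlam hne n hdvd

/-- `G-iii` of block GOOD inhabits `LevelOne.GoodBound` -/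
theorem goodBound : LevelOne.GoodBound W :=
  fun _ hl hg A hA φ hφ _ hm _ hP hfix =>
    Fermat.Agent.EC.Good.Main.le_of_frob_sq_fixed W hl hg A hA φ hφ hm hP hfix

end Inputs

/-- **PS-3 at one auxiliary prime `lam`**: for a prime `q ≠ lam`, `v_q(M) ≠ 2`, and `v_q(M) = 1`
forces `q ∣ Δ`. -/
theorem local_at (W : WeierstrassCurve ℤ) (hss : W.IsSemistableModel) (hΔ : W.Δ ≠ 0)
    {N M : ℕ} [NeZero M] (hN0 : N ≠ 0) (hMN : M ∣ N)
    (hbad : ∀ ℓ : ℕ, ℓ.Prime → (ℓ : ℤ) ∣ W.Δ → ℓ ∣ N)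
    {g : CuspForm (Gamma0 M) 2} (hg : g.IsNewform)
    (ha : ∀ ℓ : ℕ, ℓ.Prime → ¬ ℓ ∣ N → qCoeff g ℓ = ((W.apOfModel ℓ : ℤ) : ℂ))
    (lam : ℕ) [Fact lam.Prime] (hlam2 : lam ≠ 2) {q : ℕ} (hq : q.Prime) (hqlam : q ≠ lam) :
    M.factorization q ≠ 2 ∧ (M.factorization q = 1 → (q : ℤ) ∣ W.Δ) := by
  classical
  obtain ⟨hlamS, -, χ, H, hχ, h2i, h2ii⟩ :=
    exists_traceBundle_levelSet W hN0 hMN hbad hg ha lam hlam2
  have hgoodS : ∀ ℓ : ℕ, ℓ.Prime → ℓ ∉ (↑(levelSet N lam) : Set ℕ) → W.IsGoodPrimeFor ℓ :=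
    fun ℓ hℓ h => isGoodPrimeFor_of_not_mem_levelSet W hN0 hbad hℓ
      (fun hmem => h (Finset.mem_coe.mpr hmem))
  have hM0 : M ≠ 0 := NeZero.ne M
  refine ⟨fun hfac => ?_, fun hfac => ?_⟩
  · obtain ⟨B, hB, s, hs, hts⟩ := h2i q hq hqlam hfac
    exact hts (LevelTwo.t_eq_two_of_mem_inertia W H hlam2 hlamS hgoodS hχ (goodDvd W) hss hΔ
      (goodInertia W) (multFixed W hΔ) hq hqlam B hB hs)
  · by_contra hqΔ
    have hqM : q ∣ M := (hq.dvd_iff_one_le_factorization hM0).mpr hfac.ge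
    have hq2 : ¬ q ^ 2 ∣ M := fun h => by
      have := (hq.pow_dvd_iff_le_factorization hM0).mp h
      omega
    exact LevelOne.false_of_good_of_forall_trace_sq W H hΔ hlam2 hlamS hgoodS hχ (goodExists W)
      (goodBound W) hq hqlam hqΔ (h2ii q hq hqlam hqM hq2)

/-- **`LevelOut`** (block PSEUDO, node PS-3). -/
theorem levelOut : Fermat.Agent.EC.Final.Contracts.LevelOut := by
  intro W hss hΔ N hN0 hbad hN3 M hMN g hg ha
  have hM0 : M ≠ 0 := fun h => hN0 (by rw [h] at hMN; exact Nat.eq_zero_of_zero_dvd hMN)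
  have : NeZero M := ⟨hM0⟩
  have : Fact (Nat.Prime 3) := ⟨Nat.prime_three⟩
  have : Fact (Nat.Prime 5) := ⟨Nat.prime_five⟩
  have ha' : ∀ ℓ : ℕ, ℓ.Prime → ¬ ℓ ∣ N → qCoeff g ℓ = ((W.apOfModel ℓ : ℤ) : ℂ) := ha
  have key : ∀ q : ℕ, q.Prime →
      M.factorization q ≠ 2 ∧ (M.factorization q = 1 → (q : ℤ) ∣ W.Δ) := by
    intro q hq
    by_cases h3 : q = 3
    · exact local_at W hss hΔ hN0 hMN hbad hg ha' 5 (by norm_num) hq (by omega)
    · exact local_at W hss hΔ hN0 hMN hbad hg ha' 3 (by norm_num) hq h3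
  exact LevelArith.dvd_conductorLevel_of_local W hΔ hN0 hN3 hMN (fun q hq => (key q hq).1)
    (fun q hq => (key q hq).2)

end Fermat.Agent.EC.Pseudo.LevelOutGlue
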