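import Mathlib
import Fermat.Agent.EC.Pseudo.LevelGlue
import Fermat.Agent.EC.Pseudo.LevelOne

/-!
# Program E (S58), node PS-3: `Contracts.LevelOut` from the exports of the blocks GOOD and MULT

`levelOut_of_blocks` : `Contracts.LevelOut` from
* `hG1 : ∀ W, GoodDvd W` (`G-i`, `EC.Good.Main.dvd_of_fixed`),
* `hG2 : ∀ W, GoodExists W` (`G-ii`, `EC.Good.Main.exists_fixed_of_dvd`),
* `hG3 : ∀ W, GoodBound W` (`G-iii`, `EC.Good.Main.le_of_frob_sq_fixed`),
* `hG6 : ∀ W, GoodInertia W` (`G-vi`, `EC.Good.Main.fix_of_inertia`),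
* `hMu : ∀ W, W.Δ ≠ 0 → MultFixed W` (`EC.Mult.Main.exists_addOrderOf_eq_fixed`),

all in the literal shapes of the contracts (#1393, #1382), for ANY instance `[DecidableEq ℚ̄]`.
(`LevelGlue.levelOut_of_inputs` + `LevelOne.false_of_good_of_forall_trace_sq`.)
-/

set_option autoImplicit false

namespace Fermat.Agent.EC.Pseudo.LevelOutOfBlocks

open Fermat.Agent.EC.Pseudo.LevelTwo Fermat.Agent.EC.Pseudo.LevelOne
  Fermat.Agent.EC.Pseudo.LevelGlue Fermat.Agent.EC.Final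

local notation "Qb" => AlgebraicClosure ℚ

variable [DecidableEq Qb]

/-- the case (3c) in the shape of the glue, from `G-ii` and `G-iii` -/
theorem levelOneOut (hG2 : ∀ W : WeierstrassCurve ℤ, GoodExists W)
    (hG3 : ∀ W : WeierstrassCurve ℤ, GoodBound W) : LevelOneOut :=
  fun W hΔ _ _ _ _ _ _ H hlam2 hlamS hgoodS hχ _ hq hqlam hgoodq h2ii =>
    false_of_good_of_forall_trace_sq W H hΔ hlam2 hlamS hgoodS hχ (hG2 W) (hG3 W) hq hqlam hgoodq
      h2ii

/-- **PS-3: `Contracts.LevelOut` from the exports of GOOD and MULT.** -/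
theorem levelOut_of_blocks (hG1 : ∀ W : WeierstrassCurve ℤ, GoodDvd W)
    (hG2 : ∀ W : WeierstrassCurve ℤ, GoodExists W) (hG3 : ∀ W : WeierstrassCurve ℤ, GoodBound W)
    (hG6 : ∀ W : WeierstrassCurve ℤ, GoodInertia W)
    (hMu : ∀ W : WeierstrassCurve ℤ, W.Δ ≠ 0 → MultFixed W) : Contracts.LevelOut :=
  levelOut_of_inputs hG1 hG6 hMu (levelOneOut hG2 hG3)

end Fermat.Agent.EC.Pseudo.LevelOutOfBlocks
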