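import Fermat.Agent.Pseudo.S30OfPseudo

/-!
# Program E (S58), block PSEUDO: elementary facts on a Hecke pseudo-character (TraceData P1, P6)

`H : HeckePseudoChar lam M S O' χ` (`Pseudo/S30OfPseudo.lean`).

* `t_mul_self` (P6) : `H.t (σ * σ) = H.t σ ^ 2 - 2 * H.d σ`;
* `t_inv` : `H.d σ * H.t σ⁻¹ = H.t σ`;
* `t_frob`, `d_frob` (P1) : at a Frobenius element `φ` at `ℓ ∤ M`, `ℓ ∉ S`:
  `H.t φ = χ (T_ℓ)` (`= a ℓ` under `hχ`), `H.d φ = ℓ`;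
* `t_frob_sq` : `H.t (φ * φ) = χ (T_ℓ) ^ 2 - 2 * ℓ`;
* `t_of_inertia` : for `q ∤ M`, `q ≠ lam` and `σ` in an inertia group over `q`: `H.t σ = 2`,
  `H.t (σ * g) = H.t g`.
-/

set_option autoImplicit false

open CuspForm

namespace Fermat.Agent.EC.Pseudo.TraceFacts

open Fermat.Agent.Pseudo

local notation "Qb" => AlgebraicClosure ℚ
local notation "GQ" => (AlgebraicClosure ℚ ≃ₐ[ℚ] AlgebraicClosure ℚ)

variable {lam M : ℕ} [NeZero M] {S : Finset ℕ} {O' : Type} [CommRing O'] [IsDomain O']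
  [IsDiscreteValuationRing O'] {χ : heckeAlgebra M 2 (↑S : Set ℕ) →+* O'}
  (H : HeckePseudoChar lam M S O' χ)

/-- **(P6)** `t(σ²) = t(σ)² − 2 d(σ)`. -/
theorem t_mul_self (σ : GQ) : H.t (σ * σ) = H.t σ ^ 2 - 2 * ((H.d σ : O'ˣ) : O') := by
  have h := H.P3 σ σ
  rw [mul_inv_cancel, H.P1] at h
  rw [eq_sub_iff_add_eq, pow_two, ← h]
  ring

/-- `d(σ) t(σ⁻¹) = t(σ)`. -/
theorem t_inv (σ : GQ) : ((H.d σ : O'ˣ) : O') * H.t σ⁻¹ = H.t σ := by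
  have h := H.P3 1 σ
  rw [one_mul, one_mul, H.P1] at h
  have h2 : H.t σ + ((H.d σ : O'ˣ) : O') * H.t σ⁻¹ = H.t σ + H.t σ := by rw [h]; ring
  exact add_left_cancel h2

/-- **(P1)** the trace of a Frobenius element at `ℓ ∤ M`, `ℓ ∉ S`. -/
theorem t_frob {ℓ : ℕ} (hℓ : ℓ.Prime) (hℓM : ¬ ℓ ∣ M) (hℓS : ℓ ∉ (↑S : Set ℕ))
    {A : ValuationSubring Qb} (hA : A.LiesOverPrime ℓ) {φ : GQ} (hφ : A.IsFrobeniusAt φ ℓ) :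
    H.t φ = χ (heckeAlgebra.T hℓ hℓM hℓS) :=
  (H.frob ℓ hℓ hℓM hℓS A hA φ hφ).1

/-- **(P1)** the determinant of a Frobenius element at `ℓ ∤ M`, `ℓ ∉ S`. -/
theorem d_frob {ℓ : ℕ} (hℓ : ℓ.Prime) (hℓM : ¬ ℓ ∣ M) (hℓS : ℓ ∉ (↑S : Set ℕ))
    {A : ValuationSubring Qb} (hA : A.LiesOverPrime ℓ) {φ : GQ} (hφ : A.IsFrobeniusAt φ ℓ) :
    ((H.d φ : O'ˣ) : O') = (ℓ : O') :=
  (H.frob ℓ hℓ hℓM hℓS A hA φ hφ).2

/-- **(P1)** the trace of a Frobenius element, for a character with prescribed values. -/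
theorem t_frob_of_eq {a : ℕ → O'}
    (hχ : ∀ (ℓ : ℕ) (hℓ : ℓ.Prime) (hℓM : ¬ ℓ ∣ M) (hℓS : ℓ ∉ (↑S : Set ℕ)),
      χ (heckeAlgebra.T hℓ hℓM hℓS) = a ℓ)
    {ℓ : ℕ} (hℓ : ℓ.Prime) (hℓM : ¬ ℓ ∣ M) (hℓS : ℓ ∉ (↑S : Set ℕ))
    {A : ValuationSubring Qb} (hA : A.LiesOverPrime ℓ) {φ : GQ} (hφ : A.IsFrobeniusAt φ ℓ) :
    H.t φ = a ℓ :=
  (t_frob H hℓ hℓM hℓS hA hφ).trans (hχ ℓ hℓ hℓM hℓS)

/-- the trace of the square of a Frobenius element at `ℓ ∤ M`, `ℓ ∉ S` -/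
theorem t_frob_sq {ℓ : ℕ} (hℓ : ℓ.Prime) (hℓM : ¬ ℓ ∣ M) (hℓS : ℓ ∉ (↑S : Set ℕ))
    {A : ValuationSubring Qb} (hA : A.LiesOverPrime ℓ) {φ : GQ} (hφ : A.IsFrobeniusAt φ ℓ) :
    H.t (φ * φ) = χ (heckeAlgebra.T hℓ hℓM hℓS) ^ 2 - 2 * (ℓ : O') := by
  rw [t_mul_self, t_frob H hℓ hℓM hℓS hA hφ, d_frob H hℓ hℓM hℓS hA hφ]

/-- the pseudo-character is unramified at the primes `q ∤ M`, `q ≠ lam` -/
theorem t_inertia_mul {q : ℕ} (hq : q.Prime) (hqM : ¬ q ∣ M) (hqlam : q ≠ lam)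
    {P : ValuationSubring Qb} (hP : P.LiesOverPrime q) {σ : GQ}
    (hσ : σ ∈ P.inertiaSubgroupIn ℚ) (g : GQ) : H.t (σ * g) = H.t g :=
  H.inertia q hq hqM hqlam P hP σ hσ g

/-- the trace of an inertia element at a prime `q ∤ M`, `q ≠ lam` is `2` -/
theorem t_of_inertia {q : ℕ} (hq : q.Prime) (hqM : ¬ q ∣ M) (hqlam : q ≠ lam)
    {P : ValuationSubring Qb} (hP : P.LiesOverPrime q) {σ : GQ}
    (hσ : σ ∈ P.inertiaSubgroupIn ℚ) : H.t σ = 2 := by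
  have h := t_inertia_mul H hq hqM hqlam hP hσ 1
  rwa [mul_one, H.P1] at h

end Fermat.Agent.EC.Pseudo.TraceFacts
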